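/-
S39 / S40 (row 38, the GENERAL forms of "remove `p` from the level"; needed by S59-LL for
`p = 3, 5`): wiring (helper71).  Plan: `NOTES/plan/L_S39.md`.

The frozen statements S39, S40 differ from S44 (Frey form) in three ways: the curve is any
integral model `W` (semistable at `p`), `p` is any odd prime (`p = 3` included), and the level `M`
is arbitrary with `p ∥ M`.  Three cases at `p`:

* (C) `W` multiplicative at `p`, `p ∣ v_p(Δ)`: `E[p]` is finite at `p` in the sense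
  `S44.IsFiniteAt` (Tate curve, as for the Frey curve): leaf `Stmt_FinMult`.
* (A)/(B) `W` good at `p`: dichotomy `Stmt_OldNewP` (newform theory + `p`-new forms are of
  Steinberg type at `p`): either the system is `p`-old (level `M / p`, done), or `E[p]` has the
  STEINBERG SHAPE at `p` (`SteinbergShapeAt`: a line stable under the decomposition group with
  unramified quotient on which Frobenius² acts trivially).  In the second case `E[p]` is an
  extension of `χ` by `ε χ` with `χ² = 1`, flat because `W` is good at `p`; so its Kummer class is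
  a unit class of `ℚ_p^× / p`, represented by an integer: `S44.IsFiniteAt` holds (`Stmt_FinGood`).
  WARNING (checked): for a good ordinary curve with `a_p² ≢ 1 mod p` (and for a supersingular
  curve) `S44.IsFiniteAt` is FALSE (the Kummer class of the extension over `ℚ_p^nr` is a unit
  `1 + p a` with `a ∈ F̄_p`, `a^p = a_p^{±2} a`, not in `F_p`): the dichotomy is needed.
* Mazur's principle at `p` in module form for all odd `p`: `Stmt_RemovesPGen`
  (`S44.Stmt_BadP2` without `5 ≤ p`).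

`result39_of_leaves :
   Stmt_RemovesPGen → Stmt_FinMult → Stmt_OldNewP → Stmt_FinGood → <frozen S39>`
`result40_of_leaves : Stmt_RemovesPGen → Stmt_OldNewP → Stmt_FinGood → <frozen S40>`
-/
import Fermat.Agent.S44.Final3
import Fermat.Prelude.Def_WeierstrassCurve_PeuRamifiee

set_option autoImplicit false
set_option synthInstance.maxHeartbeats 400000
set_option maxHeartbeats 1000000

noncomputable section

open WeierstrassCurve WeierstrassCurve.Affine WeierstrassCurve.Affine.Point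
open scoped WeierstrassCurve.Affine

namespace Fermat.Agent.S39

open Fermat.Agent.S44 Fermat.Agent.L

/-- **Steinberg shape at `p`** of a Galois module `V` over `ZMod p`, with respect to a place `A`
of `ℚ̄` over `p`: a proper nonzero submodule `L`, stable under the decomposition group, such that
inertia acts trivially on `V / L` and the square of every Frobenius element acts trivially on
`V / L`.  (The shape of the reduction of a `p`-new form of level `p M'`:
`[[ε χ, *], [0, χ]]`, `χ` unramified, `χ² = 1`.) -/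
def SteinbergShapeAt (p : ℕ) (A : ValuationSubring (AlgebraicClosure ℚ))
    {V : Type} [AddCommGroup V] [Module (ZMod p) V] (ρ : GQ →* Module.End (ZMod p) V) : Prop :=
  ∃ L : Submodule (ZMod p) V, L ≠ ⊥ ∧ L ≠ ⊤ ∧
    (∀ σ ∈ A.decompositionSubgroup ℚ, ∀ x ∈ L, ρ σ x ∈ L) ∧
    (∀ σ ∈ A.inertiaSubgroupIn ℚ, ∀ x : V, ρ σ x - x ∈ L) ∧
    (∀ σ : GQ, A.IsFrobeniusAt σ p → ∀ x : V, ρ (σ * σ) x - x ∈ L)

/-- The Galois representation on `E[p]` for the integral model `W`. -/
abbrev rhoTors (W : WeierstrassCurve ℤ) (p : ℕ) :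
    GQ →* Module.End (ZMod p) (Tors (W.map (Int.castRingHom ℚ)) p) :=
  galoisRepModuleEnd (S := ℚ) (K := AlgebraicClosure ℚ) (W.map (Int.castRingHom ℚ)).toAffine p

/-- **Mazur's principle at `p`, module form, all odd `p`** (BAD_p): `J₀(N)[p]`, `p ∥ N`. -/
def Stmt_RemovesPGen : Prop :=
  ∀ (p : ℕ), p.Prime → p ≠ 2 → ∀ (N : ℕ) [NeZero N], p ∣ N → ¬ p ^ 2 ∣ N →
    ∀ A : ValuationSubring (AlgebraicClosure ℚ), A.LiesOverPrime p →
      (jzModule N p).RemovesP N A

/-- BAD_p in the form of `S44.Stmt_BadP2`, without `5 ≤ p`. -/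
def Stmt_BadP2Gen : Prop :=
  ∀ (p : ℕ), p.Prime → p ≠ 2 → ∀ (N : ℕ) [NeZero N], p ∣ N → ¬ p ^ 2 ∣ N →
    ∀ A : ValuationSubring (AlgebraicClosure ℚ), A.LiesOverPrime p →
      (jzModule N p).HasBadStructure N A

theorem removesPGen_of_badP2Gen (h : Stmt_BadP2Gen) : Stmt_RemovesPGen :=
  fun p hp hp2 N _ hpN hp2N A hA =>
    removesP_of_badStructure (jzModule N p) N A (h p hp hp2 N hpN hp2N A hA)

/-- `S44.Stmt_BadP2` is the case `5 ≤ p`. -/
theorem badP2_of_gen (h : Stmt_BadP2Gen) : Stmt_BadP2 :=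
  fun p hp hp5 N _ hpN hp2N A hA => h p hp (by omega) N hpN hp2N A hA

/-- **FIN-MULT** (case C): multiplicative reduction at `p` with `p ∣ v_p(Δ)`: `E[p]` is finite
at `p`.  (Tate curve: the inertia field of `E[p]` is `ℚ_p^nr(μ_p, q_E^{1/p})`,
`q_E = p^{p k} u`.  General form of `S44.Stmt_FreyFiniteAtP`.) -/
def Stmt_FinMult : Prop :=
  ∀ (W : WeierstrassCurve ℤ), W.Δ ≠ 0 → ∀ (p : ℕ), p.Prime → p ≠ 2 →
    (p : ℤ) ∣ W.Δ → ¬ (p : ℤ) ∣ W.c₄ → (W.map (Int.castRingHom ℚ)).IsPeuRamifieeAt p p →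
    ∀ A : ValuationSubring (AlgebraicClosure ℚ), A.LiesOverPrime p →
      IsFiniteAt p A (rhoTors W p)

/-- **OLD-NEW at `p`** (cases A, B): for a curve with good reduction at `p` and irreducible
`E[p]`, residually modular of a level `M` with `p ∥ M`: either it is residually modular of level
`M / p`, or `E[p]` has the Steinberg shape at every place over `p`.
[The eigensystem of `f` away from `M` is the eigensystem of a newform `g` of a level `L ∣ M`.
If `p ∤ L`: raise the level of `g` to `M / p` (stabilisation).  If `p ∣ L`: `g` is `p`-new, so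
`ρ_g` is strictly ordinary at `p` (S33 `Stmt_OrdNewStrict`), its reduction is `E[p] ⊗ k`
(Frobenius density + Brauer–Nesbitt), and the stable line descends to `ZMod p` because inertia
acts non-trivially on `E[p]` (`det = ε`, `p` odd).] -/
def Stmt_OldNewP : Prop :=
  ∀ (W : WeierstrassCurve ℤ), W.Δ ≠ 0 → ∀ (p : ℕ), p.Prime → p ≠ 2 →
    W.IsGoodPrimeFor p → W.ModRepIsIrreducible p →
    ∀ (M : ℕ), 0 < M → p ∣ M → ¬ p ^ 2 ∣ M → W.IsResiduallyModularOfLevel p M →
    W.IsResiduallyModularOfLevel p (M / p) ∨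
      ∀ A : ValuationSubring (AlgebraicClosure ℚ), A.LiesOverPrime p →
        SteinbergShapeAt p A (rhoTors W p)

/-- **FIN-GOOD** (case B): good reduction at `p` and Steinberg shape at `p`: `E[p]` is finite at
`p`.  [`E[p]` is flat at `p` (good reduction); with the Steinberg shape it is, up to the
quadratic unramified twist `χ`, an extension of `ℤ/p` by `μ_p` over `ℚ_p`, given by a Kummer
class `c ∈ ℚ_p^× / p`; flat ⟹ `c` is a unit class (`S15.Desc.H66.stmt_FlatKummer`), and a unit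
class of `ℚ_p^×/p` is represented by an integer prime to `p`.] -/
def Stmt_FinGood : Prop :=
  ∀ (W : WeierstrassCurve ℤ), W.Δ ≠ 0 → ∀ (p : ℕ), p.Prime → p ≠ 2 →
    W.IsGoodPrimeFor p → W.ModRepIsIrreducible p →
    ∀ A : ValuationSubring (AlgebraicClosure ℚ), A.LiesOverPrime p →
      SteinbergShapeAt p A (rhoTors W p) → IsFiniteAt p A (rhoTors W p)

theorem isIntegralModelOf_map' (W : WeierstrassCurve ℤ) :
    W.IsIntegralModelOf (W.map (Int.castRingHom ℚ)) :=
  ⟨1, one_smul _ _⟩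

/-- **The common core**: Mazur's principle at `p` for a curve whose `E[p]` is finite at `p`. -/
theorem lower_of_isFiniteAt (hR : Stmt_RemovesPGen)
    (W : WeierstrassCurve ℤ) (hΔ : W.Δ ≠ 0) {p : ℕ} (hp : p.Prime) (hp2 : p ≠ 2)
    (hirr : W.ModRepIsIrreducible p)
    {M : ℕ} (hM : 0 < M) (hpM : p ∣ M) (hp2M : ¬ p ^ 2 ∣ M)
    (hmod : W.IsResiduallyModularOfLevel p M)
    (A : ValuationSubring (AlgebraicClosure ℚ)) (hAp : A.LiesOverPrime p)
    (hfin : IsFiniteAt p A (rhoTors W p)) :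
    W.IsResiduallyModularOfLevel p (M / p) := by
  have : Fact p.Prime := ⟨hp⟩
  have : NeZero M := ⟨hM.ne'⟩
  obtain ⟨f, 𝔪, hf, h𝔪, hp𝔪, hcong⟩ := hmod
  have hWE := isIntegralModelOf_map' W
  have : (W.map (Int.castRingHom ℚ)).IsElliptic :=
    ⟨isUnit_iff_ne_zero.mpr (by
      rw [WeierstrassCurve.map_Δ]
      simpa using hΔ)⟩
  obtain ⟨hcont, hES, hsupp⟩ := stmt_TateModP p hp hp2 M
  have hrem := hR p hp hp2 M hpM hp2M A hAp
  -- the exceptional set: the bad primes of the model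
  set S : Finset ℕ := W.Δ.natAbs.primeFactors with hS
  have hgood : ∀ ℓ : ℕ, ℓ.Prime → ℓ ∉ S → W.IsGoodPrimeFor ℓ := fun ℓ hℓ h =>
    prime_not_mem_of_good hℓ hΔ h
  -- the eigenvector of level `M`
  obtain ⟨x, hx0, hx⟩ := hsupp f 𝔪 S (fun ℓ => W.apOfModel ℓ) hf h𝔪 hp𝔪
    (fun ℓ hℓ hℓS hℓN hℓp => hcong ℓ hℓ (hgood ℓ hℓ hℓS) hℓN hℓp)
  -- congruence recovery
  obtain ⟨ι, hinj, hequiv, hT⟩ := Fermat.Agent.L.H52.recovery p hp hp2 M hM (jzModule M p)
    hcont hES (W.map (Int.castRingHom ℚ)) W hWE hirr S hgood x hx0 hx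
  -- the system is not Eisenstein
  have hNE : ∃ ℓ : ℕ, ℓ.Prime ∧ ℓ ∉ S ∧ ¬ ℓ ∣ M ∧ ℓ ≠ p ∧
      ((W.apOfModel ℓ : ℤ) : ZMod p) ≠ 1 + (ℓ : ZMod p) := by
    have h := Fermat.Agent.S41.H19.stmt_I3 (W.map (Int.castRingHom ℚ)) W hWE p M hp hM hirr
    by_contra hcon
    apply h
    intro ℓ hℓ hℓW hℓN hℓp
    by_contra hne
    refine hcon ⟨ℓ, hℓ, ?_, hℓN, hℓp, hne⟩
    intro hmem
    rw [hS, Nat.mem_primeFactors] at hmem
    exact hℓW (Int.natCast_dvd.mpr hmem.2.1)
  have hdim : Module.finrank (ZMod p) (Tors (W.map (Int.castRingHom ℚ)) p) = 2 :=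
    Fermat.Agent.L.H52.finrank_tors_main hΔ
  -- Mazur's principle
  obtain ⟨g, 𝔪', hg, h𝔪', hp𝔪', hg_cong⟩ := hrem (Tors (W.map (Int.castRingHom ℚ)) p)
    (rhoTors W p) ι S (fun ℓ => W.apOfModel ℓ) hdim
    (fun W' hW' => hirr.2 W' (fun σ x hx => hW' σ x hx))
    hfin hinj (fun σ v => hequiv σ v) hT hNE
  refine ⟨g, 𝔪', hg, h𝔪', hp𝔪', ?_⟩
  intro ℓ hℓ hℓW hℓM hℓp
  have hℓN : ¬ ℓ ∣ M := by
    intro hdvd
    have hN : M = p * (M / p) := (Nat.mul_div_cancel' hpM).symm
    rw [hN] at hdvd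
    rcases (Nat.Prime.dvd_mul hℓ).mp hdvd with h | h
    · exact hℓp ((Nat.prime_dvd_prime_iff_eq hℓ hp).mp h)
    · exact hℓM h
  have hℓS : ℓ ∉ S := by
    intro hmem
    rw [hS, Nat.mem_primeFactors] at hmem
    exact hℓW (Int.natCast_dvd.mpr hmem.2.1)
  exact hg_cong ℓ hℓ hℓS hℓN hℓp

/-- **S40 from the leaves.**  The conclusion is the frozen statement S40. -/
theorem result40_of_leaves (hR : Stmt_RemovesPGen) (hON : Stmt_OldNewP) (hFG : Stmt_FinGood)
    (W : WeierstrassCurve ℤ) (hΔ : W.Δ ≠ 0)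
    {p : ℕ} (hp : p.Prime) (hp2 : p ≠ 2)
    (hgood : W.IsGoodPrimeFor p)
    (hirr : W.ModRepIsIrreducible p)
    {M : ℕ} (hM : 0 < M) (hpM : p ∣ M) (hp2M : ¬ p ^ 2 ∣ M)
    (hmod : W.IsResiduallyModularOfLevel p M) :
    W.IsResiduallyModularOfLevel p (M / p) := by
  rcases hON W hΔ p hp hp2 hgood hirr M hM hpM hp2M hmod with h | h
  · exact h
  · obtain ⟨A, hAp⟩ := stmt_PlaceOver p hp
    exact lower_of_isFiniteAt hR W hΔ hp hp2 hirr hM hpM hp2M hmod A hAp
      (hFG W hΔ p hp hp2 hgood hirr A hAp (h A hAp))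

/-- **S39 from the leaves.**  The conclusion is the frozen statement S39. -/
theorem result39_of_leaves (hR : Stmt_RemovesPGen) (hFM : Stmt_FinMult) (hON : Stmt_OldNewP)
    (hFG : Stmt_FinGood)
    (W : WeierstrassCurve ℤ) (hΔ : W.Δ ≠ 0)
    {p : ℕ} (hp : p.Prime) (hp2 : p ≠ 2)
    (hsemi : (p : ℤ) ∣ W.Δ → ¬ (p : ℤ) ∣ W.c₄)
    (hirr : W.ModRepIsIrreducible p)
    (hfin : (W.map (Int.castRingHom ℚ)).IsPeuRamifieeAt p p)
    {M : ℕ} (hM : 0 < M) (hpM : p ∣ M) (hp2M : ¬ p ^ 2 ∣ M)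
    (hmod : W.IsResiduallyModularOfLevel p M) :
    W.IsResiduallyModularOfLevel p (M / p) := by
  by_cases hbad : (p : ℤ) ∣ W.Δ
  · obtain ⟨A, hAp⟩ := stmt_PlaceOver p hp
    exact lower_of_isFiniteAt hR W hΔ hp hp2 hirr hM hpM hp2M hmod A hAp
      (hFM W hΔ p hp hp2 hbad (hsemi hbad) hfin A hAp)
  · exact result40_of_leaves hR hON hFG W hΔ hp hp2 hbad hirr hM hpM hp2M hmod

end Fermat.Agent.S39
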