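/-
S39 / S40 (row 38): wiring, second form (helper71).  Plan: `NOTES/plan/L_S39.md`.

As `S39/Wiring.lean`, with the Steinberg shape in the form `SteinbergShapeD`: the SQUARE OF EVERY
ELEMENT OF THE DECOMPOSITION GROUP acts trivially on `V / L` (in `SteinbergShapeAt` this is asked
for the Frobenius elements only).  The reductions of `p`-new forms have this stronger shape
(`H71.oldNewPD_of`), and it is the form which the local leaf FIN-GOOD uses.

`result40_of_leavesD : Stmt_RemovesPGen → Stmt_OldNewPD → Stmt_FinGoodD → <frozen S40>`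
`result39_of_leavesD :
   Stmt_RemovesPGen → Stmt_FinMult → Stmt_OldNewPD → Stmt_FinGoodD → <frozen S39>`
-/
import Fermat.Agent.S39.Wiring

set_option autoImplicit false
set_option synthInstance.maxHeartbeats 400000
set_option maxHeartbeats 1000000

noncomputable section

open WeierstrassCurve WeierstrassCurve.Affine WeierstrassCurve.Affine.Point
open scoped WeierstrassCurve.Affine

namespace Fermat.Agent.S39

open Fermat.Agent.S44 Fermat.Agent.L

/-- **Steinberg shape at `p`, strong form**: a proper nonzero submodule `L`, stable under the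
decomposition group, such that inertia acts trivially on `V / L` and the square of every element
of the decomposition group acts trivially on `V / L`. -/
def SteinbergShapeD (p : ℕ) (A : ValuationSubring (AlgebraicClosure ℚ))
    {V : Type} [AddCommGroup V] [Module (ZMod p) V] (ρ : GQ →* Module.End (ZMod p) V) : Prop :=
  ∃ L : Submodule (ZMod p) V, L ≠ ⊥ ∧ L ≠ ⊤ ∧
    (∀ σ ∈ A.decompositionSubgroup ℚ, ∀ x ∈ L, ρ σ x ∈ L) ∧
    (∀ σ ∈ A.inertiaSubgroupIn ℚ, ∀ x : V, ρ σ x - x ∈ L) ∧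
    (∀ σ ∈ A.decompositionSubgroup ℚ, ∀ x : V, ρ (σ * σ) x - x ∈ L)

theorem SteinbergShapeD.toAt {p : ℕ} {A : ValuationSubring (AlgebraicClosure ℚ)}
    {V : Type} [AddCommGroup V] [Module (ZMod p) V] {ρ : GQ →* Module.End (ZMod p) V}
    (h : SteinbergShapeD p A ρ) : SteinbergShapeAt p A ρ := by
  obtain ⟨L, h1, h2, h3, h4, h5⟩ := h
  exact ⟨L, h1, h2, h3, h4, fun σ hσ x => h5 σ hσ.mem_decompositionSubgroup x⟩

/-- **OLD-NEW at `p`**, strong form. -/
def Stmt_OldNewPD : Prop :=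
  ∀ (W : WeierstrassCurve ℤ), W.Δ ≠ 0 → ∀ (p : ℕ), p.Prime → p ≠ 2 →
    W.IsGoodPrimeFor p → W.ModRepIsIrreducible p →
    ∀ (M : ℕ), 0 < M → p ∣ M → ¬ p ^ 2 ∣ M → W.IsResiduallyModularOfLevel p M →
    W.IsResiduallyModularOfLevel p (M / p) ∨
      ∀ A : ValuationSubring (AlgebraicClosure ℚ), A.LiesOverPrime p →
        SteinbergShapeD p A (rhoTors W p)

theorem Stmt_OldNewPD.toOldNewP (h : Stmt_OldNewPD) : Stmt_OldNewP :=
  fun W hΔ p hp hp2 hgood hirr M hM hpM hp2M hmod =>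
    (h W hΔ p hp hp2 hgood hirr M hM hpM hp2M hmod).imp id
      (fun h' A hA => (h' A hA).toAt)

/-- **FIN-GOOD**, for the strong form of the Steinberg shape. -/
def Stmt_FinGoodD : Prop :=
  ∀ (W : WeierstrassCurve ℤ), W.Δ ≠ 0 → ∀ (p : ℕ), p.Prime → p ≠ 2 →
    W.IsGoodPrimeFor p → W.ModRepIsIrreducible p →
    ∀ A : ValuationSubring (AlgebraicClosure ℚ), A.LiesOverPrime p →
      SteinbergShapeD p A (rhoTors W p) → IsFiniteAt p A (rhoTors W p)

/-- **S40 from the leaves**, second form.  The conclusion is the frozen statement S40. -/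
theorem result40_of_leavesD (hR : Stmt_RemovesPGen) (hON : Stmt_OldNewPD)
    (hFG : Stmt_FinGoodD)
    (W : WeierstrassCurve ℤ) (hΔ : W.Δ ≠ 0)
    {p : ℕ} (hp : p.Prime) (hp2 : p ≠ 2)
    (hgood : W.IsGoodPrimeFor p)
    (hirr : W.ModRepIsIrreducible p)
    {M : ℕ} (hM : 0 < M) (hpM : p ∣ M) (hp2M : ¬ p ^ 2 ∣ M)
    (hmod : W.IsResiduallyModularOfLevel p M) :
    W.IsResiduallyModularOfLevel p (M / p) := by
  rcases hON W hΔ p hp hp2 hgood hirr M hM hpM hp2M hmod with h | h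
  · exact h
  · obtain ⟨A, hAp⟩ := stmt_PlaceOver p hp
    exact lower_of_isFiniteAt hR W hΔ hp hp2 hirr hM hpM hp2M hmod A hAp
      (hFG W hΔ p hp hp2 hgood hirr A hAp (h A hAp))

/-- **S39 from the leaves**, second form.  The conclusion is the frozen statement S39. -/
theorem result39_of_leavesD (hR : Stmt_RemovesPGen) (hFM : Stmt_FinMult) (hON : Stmt_OldNewPD)
    (hFG : Stmt_FinGoodD)
    (W : WeierstrassCurve ℤ) (hΔ : W.Δ ≠ 0)
    {p : ℕ} (hp : p.Prime) (hp2 : p ≠ 2)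
    (hsemi : (p : ℤ) ∣ W.Δ → ¬ (p : ℤ) ∣ W.c₄)
    (hirr : W.ModRepIsIrreducible p)
    (hfin : (W.map (Int.castRingHom ℚ)).IsPeuRamifieeAt p p)
    {M : ℕ} (hM : 0 < M) (hpM : p ∣ M) (hp2M : ¬ p ^ 2 ∣ M)
    (hmod : W.IsResiduallyModularOfLevel p M) :
    W.IsResiduallyModularOfLevel p (M / p) := by
  by_cases hbad : (p : ℤ) ∣ W.Δ
  · obtain ⟨A, hAp⟩ := stmt_PlaceOver p hp
    exact lower_of_isFiniteAt hR W hΔ hp hp2 hirr hM hpM hp2M hmod A hAp
      (hFM W hΔ p hp hp2 hbad (hsemi hbad) hfin A hAp)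
  · exact result40_of_leavesD hR hON hFG W hΔ hp hp2 hbad hirr hM hpM hp2M hmod

end Fermat.Agent.S39
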