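import Fermat.Agent.L.Pivot.H50_OldBridge
import Fermat.Agent.R.H86_Defs4
import Fermat.Prelude.Def_FLTPrelim_ModularRep

/-!
# S39 / S40, leaf OLD-NEW at `p`: the old case (helper71)

`residuallyModular_of_occurs` : an eigensystem `χ` of level `N` (away from `S`) with values in a
local domain `𝒪` of characteristic `0` and residue characteristic `p`, congruent to the
eigenvalues of `W` modulo the maximal ideal, which occurs at level `M`, makes `W` residually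
modular of level `M`.
[`L.Pivot.H50.exists_complex_point` gives a complex eigencharacter `μ` of level `M` with
`ker μ = ker χ'`; `R.H99.exists_normalizedEigenform_of_character` a normalised eigenform; the
prime `χ'⁻¹(𝔪_𝒪)` of the Hecke algebra contains `ker μ`, so by lying over there is a maximal ideal
of `ℤ̄` over it.]
-/

set_option autoImplicit false
set_option linter.unusedSectionVars false
set_option linter.unusedVariables false
set_option linter.style.haveILetI false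

open IsLocalRing CuspForm CongruenceSubgroup ModularFormClass

namespace Fermat.Agent.S39.H71

open Fermat.Agent.R

/-- A prime ideal of `ℤ̄` which contains a prime number is maximal. -/
theorem isMaximal_of_natCast_mem {p : ℕ} (hp : p.Prime) (Q : Ideal (integralClosure ℤ ℂ))
    [hQ : Q.IsPrime] (hpQ : (p : integralClosure ℤ ℂ) ∈ Q) : Q.IsMaximal := by
  have h1 : (Q.comap (algebraMap ℤ (integralClosure ℤ ℂ))).IsPrime := Ideal.comap_isPrime _ _
  have h2 : Q.comap (algebraMap ℤ (integralClosure ℤ ℂ)) ≠ ⊥ := by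
    intro h
    have h3 : (p : ℤ) ∈ Q.comap (algebraMap ℤ (integralClosure ℤ ℂ)) := by
      rw [Ideal.mem_comap, map_natCast]
      exact hpQ
    rw [h, Ideal.mem_bot] at h3
    exact hp.ne_zero (by exact_mod_cast h3)
  have h4 : (Q.comap (algebraMap ℤ (integralClosure ℤ ℂ))).IsMaximal := h1.isMaximal h2
  exact Ideal.isMaximal_of_isIntegral_of_isMaximal_comap Q h4

/-- **The old case.** -/
theorem residuallyModular_of_occurs (W : WeierstrassCurve ℤ) {p : ℕ} (hp : p.Prime)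
    {N M : ℕ} [NeZero N] [NeZero M] (S : Finset ℕ)
    {𝒪 : Type} [CommRing 𝒪] [IsDomain 𝒪] [CharZero 𝒪] [IsLocalRing 𝒪]
    (hp𝒪 : (p : 𝒪) ∈ maximalIdeal 𝒪)
    (χ : heckeAlgebra N 2 (↑S : Set ℕ) →+* 𝒪)
    (hχ : ∀ (ℓ : ℕ) (hℓ : ℓ.Prime) (hℓN : ¬ ℓ ∣ N) (hℓS : ℓ ∉ (↑S : Set ℕ)),
      W.IsGoodPrimeFor ℓ →
        χ (heckeAlgebra.T hℓ hℓN hℓS) - ((W.apOfModel ℓ : ℤ) : 𝒪) ∈ maximalIdeal 𝒪)
    (hocc : OccursAtLevel χ M)
    (hcover : ∀ ℓ : ℕ, ℓ.Prime → ¬ ℓ ∣ M → ℓ ≠ p → ¬ ℓ ∣ N ∧ ℓ ∉ (↑S : Set ℕ)) :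
    W.IsResiduallyModularOfLevel p M := by
  classical
  obtain ⟨χ', hχ'⟩ := hocc
  obtain ⟨μ, w, hw0, hμ, hker⟩ := Fermat.Agent.L.Pivot.H50.exists_complex_point (↑S : Set ℕ) χ'
  obtain ⟨g, hg, hgμ⟩ :=
    Fermat.Agent.R.H99.exists_normalizedEigenform_of_character (↑S : Set ℕ) μ w hw0 hμ
  have hg0 : g ≠ 0 := hg.ne_zero
  have ha : ∀ (ℓ : ℕ) (hℓ : ℓ.Prime) (hℓM : ¬ ℓ ∣ M) (hℓS : ℓ ∉ (↑S : Set ℕ)),
      qCoeff ⇑g ℓ = μ (heckeAlgebra.T hℓ hℓM hℓS) := by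
    intro ℓ hℓ hℓM hℓS
    have h1 := hgμ (heckeAlgebra.T hℓ hℓM hℓS)
    rw [heckeAlgebra.coe_T] at h1
    have h2 := Fermat.Agent.R.H99.heckeTLin_apply_eq_smul hg hℓ hℓM
    exact smul_left_injective ℂ hg0 (h2.symm.trans h1)
  -- the values of `μ` are algebraic integers
  have hfinT : Module.Finite ℤ (heckeAlgebra M 2 (↑S : Set ℕ)) := Fermat.Agent.S22.result M 2 _
  have hint : ∀ t : heckeAlgebra M 2 (↑S : Set ℕ), μ t ∈ integralClosure ℤ ℂ := by
    intro t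
    have ht : IsIntegral ℤ t := Algebra.IsIntegral.isIntegral t
    exact ht.map μ.toIntAlgHom
  let μZ : heckeAlgebra M 2 (↑S : Set ℕ) →+* integralClosure ℤ ℂ :=
    { toFun := fun t => ⟨μ t, hint t⟩
      map_one' := Subtype.ext (map_one μ)
      map_mul' := fun x y => Subtype.ext (map_mul μ x y)
      map_zero' := Subtype.ext (map_zero μ)
      map_add' := fun x y => Subtype.ext (map_add μ x y) }
  have hμZ : ∀ t, ((μZ t : integralClosure ℤ ℂ) : ℂ) = μ t := fun t => rfl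
  have hkerZ : RingHom.ker μZ = RingHom.ker χ' := by
    rw [← hker]
    ext t
    rw [RingHom.mem_ker, RingHom.mem_ker]
    constructor
    · intro h
      have := congrArg (fun y : integralClosure ℤ ℂ => (y : ℂ)) h
      exact this
    · intro h
      exact Subtype.ext h
  -- lying over
  letI : Algebra (heckeAlgebra M 2 (↑S : Set ℕ)) (integralClosure ℤ ℂ) := μZ.toAlgebra
  have hZint : Algebra.IsIntegral (heckeAlgebra M 2 (↑S : Set ℕ)) (integralClosure ℤ ℂ) := by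
    refine ⟨fun x => ?_⟩
    have hx : IsIntegral ℤ x := Algebra.IsIntegral.isIntegral x
    exact hx.tower_top
  let 𝔮 : Ideal (heckeAlgebra M 2 (↑S : Set ℕ)) := (maximalIdeal 𝒪).comap χ'
  have h𝔮 : 𝔮.IsPrime := Ideal.comap_isPrime _ _
  have hker𝔮 : RingHom.ker (algebraMap (heckeAlgebra M 2 (↑S : Set ℕ)) (integralClosure ℤ ℂ))
      ≤ 𝔮 := by
    intro t ht
    have h1 : t ∈ RingHom.ker μZ := ht
    rw [hkerZ, RingHom.mem_ker] at h1
    show χ' t ∈ maximalIdeal 𝒪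
    rw [h1]
    exact Ideal.zero_mem _
  obtain ⟨Q, hQ, hQ𝔮⟩ := Ideal.exists_ideal_over_prime_of_isIntegral_of_isDomain 𝔮 hker𝔮
  have hmemQ : ∀ t : heckeAlgebra M 2 (↑S : Set ℕ), χ' t ∈ maximalIdeal 𝒪 → μZ t ∈ Q := by
    intro t ht
    have h1 : t ∈ 𝔮 := ht
    rw [← hQ𝔮] at h1
    exact h1
  have hpQ : (p : integralClosure ℤ ℂ) ∈ Q := by
    have h1 := hmemQ (p : heckeAlgebra M 2 (↑S : Set ℕ)) (by rw [map_natCast]; exact hp𝒪)
    rwa [map_natCast] at h1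
  refine ⟨g, Q, hg, isMaximal_of_natCast_mem hp Q hpQ, hpQ, ?_⟩
  intro ℓ hℓ hgood hℓM hℓp
  obtain ⟨hℓN, hℓS⟩ := hcover ℓ hℓ hℓM hℓp
  refine ⟨μZ (heckeAlgebra.T hℓ hℓM hℓS), ?_, ?_⟩
  · rw [hμZ, ha ℓ hℓ hℓM hℓS]
  · have h1 := hmemQ (heckeAlgebra.T hℓ hℓM hℓS - ((W.apOfModel ℓ : ℤ) :
      heckeAlgebra M 2 (↑S : Set ℕ))) (by
        rw [map_sub, map_intCast, hχ' ℓ hℓ hℓN hℓM hℓS]
        exact hχ ℓ hℓ hℓN hℓS hgood)
    rwa [map_sub, map_intCast] at h1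

end Fermat.Agent.S39.H71
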