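import Fermat.Agent.S39.H71_Shape
import Fermat.Agent.S39.H71_OldCase
import Fermat.Agent.S59.Asm.Cond
import Fermat.Agent.S59.LL.H77_BridgeRes
import Fermat.Agent.S58.H99_Odd
import Fermat.Agent.R.H33_TatePiece
import Fermat.Agent.R.H2_PDVRStmt
import Fermat.Agent.L.H52_DetCyc
import Fermat.Agent.S44.CycRam

/-!
# S39 / S40, leaf OLD-NEW at `p` (helper71)

`oldNewPD_of : S59.Asm.Stmt_OrdNewStrict → S39.Stmt_OldNewPD` (strong form of the Steinberg
shape, `S39/WiringD.lean`) and `oldNewP_of : S59.Asm.Stmt_OrdNewStrict → S39.Stmt_OldNewP`.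

`W` good at `p`, `E[p]` irreducible, `(f, 𝔪)` of level `M`, `p ∥ M`, congruent to `W`.
* `χ_f : 𝕋_M^S → ℤ̄` (`S` the primes of `M`), `R = χ_f(𝕋)`, `P = R ∩ 𝔪`, `R ↪ 𝒪'` (`stmt_PDVR`),
  `ρ` over `𝒪''` with the Frobenius characteristic polynomials of `χ` (S30).
* If `χ` occurs at level `M / p`: `H71.residuallyModular_of_occurs`.
* Otherwise `ρ` is strictly ordinary at `p` (`Stmt_OrdNewStrict`); its residual representation is
  `E[p] ⊗ k` (Frobenius density, Carayol over a field); `H71.steinbergShape_of_residual`.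
-/

set_option autoImplicit false
set_option linter.unusedSectionVars false
set_option linter.unusedVariables false
set_option linter.style.haveILetI false
set_option maxHeartbeats 1000000
set_option synthInstance.maxHeartbeats 400000

open Polynomial IsLocalRing CuspForm
open WeierstrassCurve WeierstrassCurve.Affine
open scoped TensorProduct WeierstrassCurve.Affine

namespace Fermat.Agent.S39.H71

open Fermat.Agent.S39 Fermat.Agent.S44 Fermat.Agent.R

/-- **OLD-NEW at `p`** from the `p`-new case of S33 (strict form). -/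
theorem oldNewPD_of (hON : Fermat.Agent.S59.Asm.Stmt_OrdNewStrict) : Stmt_OldNewPD := by
  intro W hΔ p hp hp2 hgoodp hirr M hM hpM hp2M hmod
  classical
  haveI : Fact p.Prime := ⟨hp⟩
  haveI : NeZero M := ⟨hM.ne'⟩
  obtain ⟨f, 𝔪, hf, h𝔪, hp𝔪, hcong⟩ := hmod
  -- the set `S`
  set S : Finset ℕ := M.primeFactors with hS
  have hNS : ∀ q : ℕ, q.Prime → q ∣ M → q ∈ S := fun q hq hqM =>
    Nat.mem_primeFactors.mpr ⟨hq, hqM, hM.ne'⟩
  have hpS : p ∈ S := hNS p hp hpM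
  have hSM : ∀ ℓ : ℕ, ℓ.Prime → ¬ ℓ ∣ M → ℓ ∉ (↑S : Set ℕ) := fun ℓ hℓ hℓM h =>
    hℓM (Nat.dvd_of_mem_primeFactors (Finset.mem_coe.1 h))
  -- the eigen-character
  obtain ⟨χg, hχg⟩ := Fermat.Agent.R.H99.stmt_eigenChar M (↑S : Set ℕ) f hf
  let R : Subring (integralClosure ℤ ℂ) := χg.range
  haveI hfinT : Module.Finite ℤ (CuspForm.heckeAlgebra M 2 (↑S : Set ℕ)) :=
    Fermat.Agent.S22.result M 2 _
  haveI hfinR : Module.Finite ℤ R :=
    Module.Finite.of_surjective (χg.rangeRestrict.toIntAlgHom.toLinearMap)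
      χg.rangeRestrict_surjective
  let P : Ideal R := 𝔪.comap R.subtype
  have hsubint : R.subtype.IsIntegral := by
    intro x
    have hx : IsIntegral ℤ x := Algebra.IsIntegral.isIntegral x
    obtain ⟨q, hq, hqx⟩ := hx
    refine ⟨q.map (Int.castRingHom R), hq.map _, ?_⟩
    rw [Polynomial.eval₂_map]
    have : R.subtype.comp (Int.castRingHom R) = algebraMap ℤ (integralClosure ℤ ℂ) :=
      RingHom.ext_int _ _
    rw [this]
    exact hqx
  haveI := h𝔪
  haveI hPmax : P.IsMaximal :=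
    Ideal.isMaximal_comap_of_isIntegral_of_isMaximal' R.subtype hsubint 𝔪
  obtain ⟨𝒪', iCR, iD, iDVR, iAC, iFin, iCZ, ι, hιinj, hιcomap⟩ :=
    Fermat.Agent.R.H2.stmt_PDVR R P
  have hPmem : ∀ r : R, r ∈ P → ι r ∈ maximalIdeal 𝒪' := by
    intro r hr
    have : r ∈ (maximalIdeal 𝒪').comap ι := hιcomap ▸ hr
    exact this
  have hp𝒪' : (p : 𝒪') ∈ maximalIdeal 𝒪' := by
    have hpP : (p : R) ∈ P := by
      show R.subtype (p : R) ∈ 𝔪
      rw [map_natCast]; exact hp𝔪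
    have := hPmem _ hpP
    rwa [map_natCast] at this
  let χ : CuspForm.heckeAlgebra M 2 (↑S : Set ℕ) →+* 𝒪' := ι.comp χg.rangeRestrict
  -- the Galois representation
  obtain ⟨𝒪'', iCR'', iD'', iDVR'', iAC'', iFin'', iCZ'', iAlg, iMF, iLH, hinj'', ρ, hchar, hunr⟩ :=
    Fermat.Agent.R.H33.stmt_S30 p M S hpS hNS 𝒪' hp𝒪' χ
  have hloc : ∀ x : 𝒪', x ∈ maximalIdeal 𝒪' → algebraMap 𝒪' 𝒪'' x ∈ maximalIdeal 𝒪'' := by
    intro x hx
    rw [mem_maximalIdeal, mem_nonunits_iff] at hx ⊢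
    exact fun hu => hx (isUnit_of_map_unit (algebraMap 𝒪' 𝒪'') _ hu)
  have hp𝒪'' : (p : 𝒪'') ∈ maximalIdeal 𝒪'' := by
    have := hloc _ hp𝒪'
    rwa [map_natCast] at this
  let χ'' : CuspForm.heckeAlgebra M 2 (↑S : Set ℕ) →+* 𝒪'' := (algebraMap 𝒪' 𝒪'').comp χ
  have hρ : HasFrobCharpoly χ'' ρ := fun ℓ hℓ hℓN hℓS B hB σ hσ =>
    hchar ℓ hℓ hℓN hℓS B hB σ hσ
  -- the congruence
  have hχW : ∀ (ℓ : ℕ) (hℓ : ℓ.Prime) (hℓM : ¬ ℓ ∣ M) (hℓS : ℓ ∉ (↑S : Set ℕ)),
      W.IsGoodPrimeFor ℓ →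
        χ'' (heckeAlgebra.T hℓ hℓM hℓS) - ((W.apOfModel ℓ : ℤ) : 𝒪'') ∈ maximalIdeal 𝒪'' := by
    intro ℓ hℓ hℓM hℓS hgood
    have hℓp : ℓ ≠ p := fun h => hℓS (Finset.mem_coe.2 (h ▸ hpS))
    obtain ⟨a, ha, ham⟩ := hcong ℓ hℓ hgood hℓM hℓp
    have hae : a = χg (heckeAlgebra.T hℓ hℓM hℓS) :=
      Subtype.ext (ha.trans (hχg ℓ hℓ hℓM hℓS).symm)
    have h1 : χg.rangeRestrict (heckeAlgebra.T hℓ hℓM hℓS) - ((W.apOfModel ℓ : ℤ) : R) ∈ P := by
      show R.subtype (χg.rangeRestrict (heckeAlgebra.T hℓ hℓM hℓS) -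
        ((W.apOfModel ℓ : ℤ) : R)) ∈ 𝔪
      rw [map_sub, map_intCast]
      rw [hae] at ham
      exact ham
    have h2 := hloc _ (hPmem _ h1)
    rwa [map_sub, map_intCast, map_sub, map_intCast] at h2
  -- the level
  have hMM' : M = M / p * p := (Nat.div_mul_cancel hpM).symm
  have hpM' : ¬ p ∣ M / p := by
    rintro ⟨c, hc⟩
    apply hp2M
    refine ⟨c, ?_⟩
    rw [hMM', hc]
    ring
  have hM'pos : 0 < M / p := Nat.div_pos (Nat.le_of_dvd hM hpM) hp.pos
  haveI : NeZero (M / p) := ⟨hM'pos.ne'⟩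
  by_cases hocc : OccursAtLevel χ'' (M / p)
  · left
    refine residuallyModular_of_occurs W hp S hp𝒪'' χ'' hχW hocc ?_
    intro ℓ hℓ hℓM' hℓp
    have hℓM : ¬ ℓ ∣ M := by
      intro hd
      rw [hMM'] at hd
      rcases (Nat.Prime.dvd_mul hℓ).1 hd with h | h
      · exact hℓM' h
      · exact hℓp ((Nat.prime_dvd_prime_iff_eq hℓ hp).1 h)
    exact ⟨hℓM, hSM ℓ hℓ hℓM⟩
  · right
    intro A hA
    -- the residue field
    have hchar' : CharP (ResidueField 𝒪'') p :=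
      Fermat.Agent.S58.H99.charP_residueField hp hp𝒪''
    let j : ZMod p →+* ResidueField 𝒪'' := ZMod.castHom (dvd_refl p) (ResidueField 𝒪'')
    letI : Algebra (ZMod p) (ResidueField 𝒪'') := j.toAlgebra
    -- `E[p]`
    have hker := Fermat.Agent.S58.H99.torsW_finiteLevel W hΔ p
    have hfr := Fermat.Agent.S58.H99.finrank_torsW W hΔ p
    have hcard₁ : Nat.card (Submodule.torsionBy ℤ
        ((W.map (Int.castRingHom ℚ))⁄(AlgebraicClosure ℚ)).Point p) = p ^ 2 := by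
      have : Module.Finite (ZMod p) (Fermat.Agent.S58.H99.TorsW W p) :=
        Module.finite_of_finrank_eq_succ hfr
      have h := Module.natCard_eq_pow_finrank (K := ZMod p)
        (V := Fermat.Agent.S58.H99.TorsW W p)
      rw [hfr, Nat.card_zmod] at h
      exact h
    let ρ₀ : ResidualGaloisRep (ZMod p) := Fermat.Agent.S59.LL.H77.torsRep W p hcard₁ hker
    let ρ₁ : ResidualGaloisRep (ResidueField 𝒪'') := ρ₀.baseChangeAlong j
    -- equal Frobenius characteristic polynomials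
    have hfrob : ∀ ℓ : ℕ, ℓ.Prime → ℓ ∉ S ∪ W.Δ.natAbs.primeFactors →
        ∀ B : ValuationSubring (AlgebraicClosure ℚ), B.LiesOverPrime ℓ →
          ∀ σ : GQ, B.IsFrobeniusAt σ ℓ →
            LinearMap.charpoly (ρ.residual.ρ σ) = LinearMap.charpoly (ρ₁.ρ σ) := by
      intro ℓ hℓ hℓS' B hB σ hσ
      have hℓS : ℓ ∉ (↑S : Set ℕ) := fun h => hℓS' (Finset.mem_union_left _ (Finset.mem_coe.1 h))
      have hℓM : ¬ ℓ ∣ M := fun h => hℓS (Finset.mem_coe.2 (hNS ℓ hℓ h))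
      have hℓp : ℓ ≠ p := fun h => hℓS (Finset.mem_coe.2 (h ▸ hpS))
      have hgood : W.IsGoodPrimeFor ℓ := by
        intro hdvd
        refine hℓS' (Finset.mem_union_right _ (Nat.mem_primeFactors.2 ⟨hℓ, ?_, ?_⟩))
        · exact Int.natCast_dvd.1 hdvd
        · exact Int.natAbs_ne_zero.2 hΔ
      have hres : residue 𝒪'' (χ'' (heckeAlgebra.T hℓ hℓM hℓS)) =
          j (((W.apOfModel ℓ : ℤ) : ZMod p)) := by
        have h1 := (residue_eq_zero_iff _).2 (hχW ℓ hℓ hℓM hℓS hgood)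
        rw [map_sub, sub_eq_zero, map_intCast] at h1
        rw [h1, map_intCast]
      rw [Fermat.Agent.S59.Asm.charpoly_resid, hρ ℓ hℓ hℓM hℓS B hB σ hσ,
        Fermat.Agent.S59.Asm.charpoly_bcAlong_resid,
        Fermat.Agent.S59.LL.H77.charpoly_residualGaloisRepOf W p hcard₁ hker ℓ hℓ hℓp.symm hgood
          B hB σ hσ]
      simp only [Polynomial.map_add, Polynomial.map_sub, Polynomial.map_mul, Polynomial.map_pow,
        Polynomial.map_X, Polynomial.map_C, hres, map_natCast, Polynomial.map_natCast]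
    have hcp : ∀ g : GQ, LinearMap.charpoly (ρ.residual.ρ g) = LinearMap.charpoly (ρ₁.ρ g) :=
      Fermat.Agent.S59.Datum.H57.charpoly_eq_of_frob ρ.residual ρ₁ _ hfrob
    have htd : ∀ g : GQ,
        LinearMap.trace (ResidueField 𝒪'') ρ.residual.V (ρ.residual.ρ g) =
          j (LinearMap.trace (ZMod p) ρ₀.V (ρ₀.ρ g)) ∧
        LinearMap.det (ρ.residual.ρ g) = j (LinearMap.det (ρ₀.ρ g)) := by
      intro g
      obtain ⟨h1, h2⟩ := Fermat.Agent.R.trace_det_eq_of_charpoly_eq ρ.residual.finrank_eq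
        ρ₁.finrank_eq _ _ (hcp g)
      refine ⟨h1.trans ?_, h2.trans ?_⟩
      · exact LinearMap.trace_baseChange (ρ₀.ρ g) (ResidueField 𝒪'')
      · exact LinearMap.det_baseChange (ρ₀.ρ g)
    -- absolute irreducibility
    have habs : ρ.residual.IsAbsolutelyIrreducible := by
      obtain ⟨g, hg⟩ := Fermat.Agent.S58.H99.exists_gram_ne_zero_of_span hfr
        (Fermat.Agent.S58.H99.torsRho W p)
        (Fermat.Agent.S58.H99.span_torsRho W hΔ p hp2 hirr)
      apply Fermat.Agent.S58.H99.isAbsolutelyIrreducible_of_gram ρ.residual g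
      have hmap : (Matrix.of fun a b =>
            LinearMap.trace (ResidueField 𝒪'') ρ.residual.V (ρ.residual.ρ (g a * g b))) =
          (Matrix.of fun a b =>
            LinearMap.trace (ZMod p) (Fermat.Agent.S58.H99.TorsW W p)
              (Fermat.Agent.S58.H99.torsRho W p (g a * g b))).map j := by
        ext a b
        simp only [Matrix.of_apply, Matrix.map_apply]
        exact (htd (g a * g b)).1
      rw [hmap, ← RingHom.mapMatrix_apply, ← RingHom.map_det]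
      exact fun h0 => hg ((map_eq_zero _).mp h0)
    -- the strictly ordinary line
    have hso : ρ.IsStrictOrdinaryAt p :=
      hON p M (M / p) S 𝒪'' hp hp2 hp𝒪'' hMM' hpM' hNS χ'' ρ hρ habs hocc
    obtain ⟨L, hL⟩ := residual_line_of_strictOrdinary ρ hso A hA
    -- the equivalence
    obtain ⟨E⟩ := Fermat.Agent.S59.Datum.H57.isEquiv_of_charpoly_eq ρ₁ ρ.residual habs
      (fun σ => (hcp σ).symm)
    refine steinbergShapeD_of_residual hp A (rhoTors W p) ρ.residual.ρ E.toLinearEquiv ?_ L hL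
      ?_ ?_ (Fermat.Agent.S44.stmt_CycRam p hp hp2 A hA)
    · intro σ c v
      exact E.map_apply σ (c ⊗ₜ[ZMod p] v)
    · intro σ a ha
      exact Fermat.Agent.L.H52.det_rhoW_eq_natCast hΔ σ a ha
    · intro σ
      exact (htd σ).2

/-- **OLD-NEW at `p`** (weak form of the Steinberg shape). -/
theorem oldNewP_of (hON : Fermat.Agent.S59.Asm.Stmt_OrdNewStrict) : Stmt_OldNewP :=
  (oldNewPD_of hON).toOldNewP

end Fermat.Agent.S39.H71
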