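/-
helper93, S39 for SEMISTABLE curves at SQUAREFREE levels, every odd `p` (`p = 3` included):
the form of S39 which S59-LL (`S59.LL.H40.llec_of_ss`) and the induction of S38 use.
Plan: `NOTES/plan/L_S39_BAD3.md` (v2).

* `lower_of_removesP` : the common core of helper71 (`S39.lower_of_isFiniteAt`) with Mazur's
  principle at `p` as a hypothesis at the given level only;
* `lower_at` : S39 at a level `M` at which Mazur's principle at `p` holds (module form);
* `Stmt_UnrOut` (UNR-OUT) : a curve which is residually modular of level `M` has `E[p]` unramified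
  at the primes `q ∤ M p`;
* `Stmt_S39sf` : S39 for a semistable curve at a squarefree level;
* `s39sf_of` : `Stmt_S39sf` from BAD_p at the tame levels (`BADP3.Stmt_BadP2T`), Mazur's principle
  at the primes which are not exceptional (`S38.H37.Stmt_NonExcW`, used at `q = 2`, `p = 3` only),
  UNR-OUT, FIN-MULT, OLD-NEW, FIN-GOOD.
  [`p ≥ 5`, or `p = 3` and `M` even: the level is tame.  `p = 3`, `M` odd: raise the level to
  `2 M` (stabilisation), remove `3` at the tame level `2 M`, then remove `2` from `2 M / 3` by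
  Mazur's principle: `E[3]` is unramified at `2` (UNR-OUT at the level `M`) and `2` is not
  exceptional (`3 ∤ 2 - 1`).]
* `s39ss_of_sf : Stmt_S39sf → S59.LL.H40.Stmt_S39ss`.
-/
import Fermat.Agent.S39.WiringD
import Fermat.Agent.S38.H37_Wire3
import Fermat.Agent.S44.Done
import Fermat.Agent.BADP3.Wiring
import Fermat.Agent.S59.LL.H40_LLss

set_option autoImplicit false
set_option synthInstance.maxHeartbeats 400000
set_option maxHeartbeats 1000000

noncomputable section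

open WeierstrassCurve WeierstrassCurve.Affine WeierstrassCurve.Affine.Point
open scoped WeierstrassCurve.Affine

namespace Fermat.Agent.S39.H93

open Fermat.Agent.S44 Fermat.Agent.L Fermat.Agent.S39 Fermat.Agent.L.Pivot.H76

/-- **The common core**, with Mazur's principle at `p` at the given level as a hypothesis. -/
theorem lower_of_removesP
    (W : WeierstrassCurve ℤ) (hΔ : W.Δ ≠ 0) {p : ℕ} (hp : p.Prime) (hp2 : p ≠ 2)
    (hirr : W.ModRepIsIrreducible p)
    {M : ℕ} [NeZero M] (hM : 0 < M) (hpM : p ∣ M)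
    (hmod : W.IsResiduallyModularOfLevel p M)
    (A : ValuationSubring (AlgebraicClosure ℚ))
    (hrem : (jzModule M p).RemovesP M A)
    (hfin : IsFiniteAt p A (rhoTors W p)) :
    W.IsResiduallyModularOfLevel p (M / p) := by
  have : Fact p.Prime := ⟨hp⟩
  obtain ⟨f, 𝔪, hf, h𝔪, hp𝔪, hcong⟩ := hmod
  have hWE := isIntegralModelOf_map' W
  have : (W.map (Int.castRingHom ℚ)).IsElliptic :=
    ⟨isUnit_iff_ne_zero.mpr (by
      rw [WeierstrassCurve.map_Δ]
      simpa using hΔ)⟩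
  obtain ⟨hcont, hES, hsupp⟩ := stmt_TateModP p hp hp2 M
  set S : Finset ℕ := W.Δ.natAbs.primeFactors with hS
  have hgood : ∀ ℓ : ℕ, ℓ.Prime → ℓ ∉ S → W.IsGoodPrimeFor ℓ := fun ℓ hℓ h =>
    prime_not_mem_of_good hℓ hΔ h
  obtain ⟨x, hx0, hx⟩ := hsupp f 𝔪 S (fun ℓ => W.apOfModel ℓ) hf h𝔪 hp𝔪
    (fun ℓ hℓ hℓS hℓN hℓp => hcong ℓ hℓ (hgood ℓ hℓ hℓS) hℓN hℓp)
  obtain ⟨ι, hinj, hequiv, hT⟩ := Fermat.Agent.L.H52.recovery p hp hp2 M hM (jzModule M p)
    hcont hES (W.map (Int.castRingHom ℚ)) W hWE hirr S hgood x hx0 hx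
  have hNE : ∃ ℓ : ℕ, ℓ.Prime ∧ ℓ ∉ S ∧ ¬ ℓ ∣ M ∧ ℓ ≠ p ∧
      ((W.apOfModel ℓ : ℤ) : ZMod p) ≠ 1 + (ℓ : ZMod p) := by
    have h := Fermat.Agent.S41.H19.stmt_I3 (W.map (Int.castRingHom ℚ)) W hWE p M hp hM hirr
    by_contra hcon
    apply h
    intro ℓ hℓ hℓW hℓN hℓp
    by_contra hne
    refine hcon ⟨ℓ, hℓ, ?_, hℓN, hℓp, hne⟩
    intro hmem
    rw [hS, Nat.mem_primeFactors] at hmem
    exact hℓW (Int.natCast_dvd.mpr hmem.2.1)
  have hdim : Module.finrank (ZMod p) (Tors (W.map (Int.castRingHom ℚ)) p) = 2 :=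
    Fermat.Agent.L.H52.finrank_tors_main hΔ
  obtain ⟨g, 𝔪', hg, h𝔪', hp𝔪', hg_cong⟩ := hrem (Tors (W.map (Int.castRingHom ℚ)) p)
    (rhoTors W p) ι S (fun ℓ => W.apOfModel ℓ) hdim
    (fun W' hW' => hirr.2 W' (fun σ x hx => hW' σ x hx))
    hfin hinj (fun σ v => hequiv σ v) hT hNE
  refine ⟨g, 𝔪', hg, h𝔪', hp𝔪', ?_⟩
  intro ℓ hℓ hℓW hℓM hℓp
  have hℓN : ¬ ℓ ∣ M := by
    intro hdvd
    have hN : M = p * (M / p) := (Nat.mul_div_cancel' hpM).symm
    rw [hN] at hdvd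
    rcases (Nat.Prime.dvd_mul hℓ).mp hdvd with h | h
    · exact hℓp ((Nat.prime_dvd_prime_iff_eq hℓ hp).mp h)
    · exact hℓM h
  have hℓS : ℓ ∉ S := by
    intro hmem
    rw [hS, Nat.mem_primeFactors] at hmem
    exact hℓW (Int.natCast_dvd.mpr hmem.2.1)
  exact hg_cong ℓ hℓ hℓS hℓN hℓp

/-- **S39 at a level at which Mazur's principle at `p` holds.** -/
theorem lower_at (hFM : Stmt_FinMult) (hON : Stmt_OldNewPD) (hFG : Stmt_FinGoodD)
    (W : WeierstrassCurve ℤ) (hΔ : W.Δ ≠ 0) {p : ℕ} (hp : p.Prime) (hp2 : p ≠ 2)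
    (hsemi : (p : ℤ) ∣ W.Δ → ¬ (p : ℤ) ∣ W.c₄)
    (hirr : W.ModRepIsIrreducible p)
    (hfin : (W.map (Int.castRingHom ℚ)).IsPeuRamifieeAt p p)
    {M : ℕ} [NeZero M] (hM : 0 < M) (hpM : p ∣ M) (hp2M : ¬ p ^ 2 ∣ M)
    (hrem : ∀ A : ValuationSubring (AlgebraicClosure ℚ), A.LiesOverPrime p →
      (jzModule M p).RemovesP M A)
    (hmod : W.IsResiduallyModularOfLevel p M) :
    W.IsResiduallyModularOfLevel p (M / p) := by
  obtain ⟨A, hAp⟩ := stmt_PlaceOver p hp
  by_cases hbad : (p : ℤ) ∣ W.Δ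
  · exact lower_of_removesP W hΔ hp hp2 hirr hM hpM hmod A (hrem A hAp)
      (hFM W hΔ p hp hp2 hbad (hsemi hbad) hfin A hAp)
  · rcases hON W hΔ p hp hp2 hbad hirr M hM hpM hp2M hmod with h | h
    · exact h
    · exact lower_of_removesP W hΔ hp hp2 hirr hM hpM hmod A (hrem A hAp)
        (hFG W hΔ p hp hp2 hbad hirr A hAp (h A hAp))

/-- **(UNR-OUT)**: a curve with `E[p]` irreducible which is residually modular of level `M` has
`E[p]` unramified at every prime `q ∤ M p`.  [The residual representation of the eigenform (S29)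
is unramified outside `M p` and has the Frobenius traces of `E[p]` at almost all primes:
Frobenius density and Brauer-Nesbitt (`E[p]` is absolutely irreducible: it is odd).] -/
def Stmt_UnrOut : Prop :=
  ∀ (p : ℕ), p.Prime → p ≠ 2 → ∀ (W : WeierstrassCurve ℤ), W.Δ ≠ 0 →
    W.ModRepIsIrreducible p → ∀ (M : ℕ), 0 < M → W.IsResiduallyModularOfLevel p M →
    ∀ (q : ℕ), q.Prime → q ≠ p → ¬ q ∣ M → UnrW W p q

/-- **S39 for a semistable curve at a squarefree level** (every odd `p`). -/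
def Stmt_S39sf : Prop :=
  ∀ (p : ℕ), p.Prime → p ≠ 2 → ∀ (W : WeierstrassCurve ℤ), W.Δ ≠ 0 → W.IsSemistableModel →
    W.ModRepIsIrreducible p → (W.map (Int.castRingHom ℚ)).IsPeuRamifieeAt p p →
    ∀ (M : ℕ), Squarefree M → p ∣ M → W.IsResiduallyModularOfLevel p M →
    W.IsResiduallyModularOfLevel p (M / p)

/-- Mazur's principle at `p` (module form) at the tame levels, from BAD_p. -/
theorem removesP_tame (hB : Fermat.Agent.BADP3.Stmt_BadP2T) {p : ℕ} (hp : p.Prime)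
    (hp2 : p ≠ 2) {M : ℕ} [NeZero M] (hpM : p ∣ M) (hp2M : ¬ p ^ 2 ∣ M)
    (ht : 5 ≤ p ∨ 2 ∣ M) (A : ValuationSubring (AlgebraicClosure ℚ))
    (hA : A.LiesOverPrime p) : (jzModule M p).RemovesP M A := by
  by_cases h5 : 5 ≤ p
  · exact removesP_ge5 p hp h5 M hpM hp2M A hA
  · have h2M : 2 ∣ M := ht.resolve_left h5
    have hp3 : p = 3 := by
      rcases Fermat.Agent.S38.H37.eq_three_or_five_le hp hp2 with h | h
      · exact h
      · exact absurd h h5
    refine Fermat.Agent.BADP3.removesPT_of hB p hp hp2 M hpM hp2M ?_ A hA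
    refine Or.inr (Or.inl ⟨hp3, ?_⟩)
    subst hp3
    obtain ⟨k, hk⟩ := hpM
    have h2k : 2 ∣ k := by
      have h1 : 2 ∣ 3 * k := hk ▸ h2M
      exact (Nat.Coprime.dvd_mul_left (by norm_num : Nat.Coprime 2 3)).1 h1
    rw [hk, Nat.mul_div_cancel_left k (by norm_num : 0 < 3)]
    exact h2k

/-- **S39 for semistable curves at squarefree levels**, from the leaves. -/
theorem s39sf_of (hB : Fermat.Agent.BADP3.Stmt_BadP2T)
    (hNE : Fermat.Agent.S38.H37.Stmt_NonExcW) (hU : Stmt_UnrOut)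
    (hFM : Stmt_FinMult) (hON : Stmt_OldNewPD) (hFG : Stmt_FinGoodD) : Stmt_S39sf := by
  intro p hp hp2 W hΔ hW hirr hfin M hsq hpM hmod
  have hMpos : 0 < M := Nat.pos_of_ne_zero hsq.ne_zero
  have : NeZero M := ⟨hsq.ne_zero⟩
  have hp2M : ¬ p ^ 2 ∣ M := fun h => hp.not_isUnit (hsq p (by rwa [pow_two] at h))
  have hsemi : (p : ℤ) ∣ W.Δ → ¬ (p : ℤ) ∣ W.c₄ := fun h => hW p hp h
  by_cases ht : 5 ≤ p ∨ 2 ∣ M
  · -- the level is tame
    exact lower_at hFM hON hFG W hΔ hp hp2 hsemi hirr hfin hMpos hpM hp2M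
      (fun A hA => removesP_tame hB hp hp2 hpM hp2M ht A hA) hmod
  · -- `p = 3`, the level is odd
    push Not at ht
    obtain ⟨h5, h2M⟩ := ht
    have hp3 : p = 3 := by
      rcases Fermat.Agent.S38.H37.eq_three_or_five_le hp hp2 with h | h
      · exact h
      · omega
    subst hp3
    obtain ⟨k, rfl⟩ := hpM
    have h2k : ¬ 2 ∣ k := fun h => h2M (h.mul_left 3)
    have hk0 : k ≠ 0 := by
      rintro rfl
      exact hsq.ne_zero rfl
    have hksq : Squarefree k := hsq.squarefree_of_dvd (Dvd.intro_left 3 rfl)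
    -- the level `2 M`
    have hsq2 : Squarefree (2 * (3 * k)) := by
      rw [Nat.squarefree_mul_iff]
      refine ⟨?_, Nat.prime_two.squarefree, hsq⟩
      exact (Nat.Prime.coprime_iff_not_dvd Nat.prime_two).2 h2M
    have hmod2 : W.IsResiduallyModularOfLevel 3 (2 * (3 * k)) :=
      Fermat.Agent.S38.H75.raise_level W 3 hsq2 (Dvd.intro_left 2 rfl) hmod
    have : NeZero (2 * (3 * k)) := ⟨hsq2.ne_zero⟩
    have h3 : W.IsResiduallyModularOfLevel 3 (2 * (3 * k) / 3) :=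
      lower_at hFM hON hFG W hΔ hp hp2 hsemi hirr hfin (Nat.pos_of_ne_zero hsq2.ne_zero)
        ⟨2 * k, by ring⟩
        (fun h => hp.not_isUnit (hsq2 3 (by rwa [pow_two] at h)))
        (fun A hA => removesP_tame hB hp hp2 ⟨2 * k, by ring⟩
          (fun h => hp.not_isUnit (hsq2 3 (by rwa [pow_two] at h)))
          (Or.inr (Dvd.intro _ rfl)) A hA) hmod2
    have e1 : 2 * (3 * k) / 3 = 2 * k := by
      rw [show 2 * (3 * k) = 3 * (2 * k) by ring, Nat.mul_div_cancel_left _ (by norm_num : 0 < 3)]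
    rw [e1] at h3
    -- remove `2`
    have hsq3 : Squarefree (2 * k) := hsq2.squarefree_of_dvd ⟨3, by ring⟩
    have hunr : UnrW W 3 2 :=
      hU 3 hp hp2 W hΔ hirr (3 * k) hMpos hmod 2 Nat.prime_two (by norm_num) h2M
    have hnexc : ¬ IsExcW W 3 2 := by
      rintro ⟨h, -⟩
      have : (3 : ℕ) ≤ 2 - 1 := Nat.le_of_dvd (by norm_num) h
      omega
    obtain ⟨f, 𝔪, hf, h𝔪, hp𝔪, hcong⟩ := h3
    have hLC := hNE 3 hp hp2 W hΔ hW hirr (2 * k) 2 hsq3 Nat.prime_two (by norm_num)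
      (Dvd.intro _ rfl) hunr hnexc f 𝔪 hf h𝔪 hp𝔪 hcong
    have h4 := Fermat.Agent.S38.isResiduallyModular_of_lowerConcl
      Fermat.Agent.S38.H49.stmt_Complete 3 hp W hΔ (2 * k) 2 hsq3 Nat.prime_two
      (Dvd.intro _ rfl) hLC
    rw [Nat.mul_div_cancel_left k (by norm_num : 0 < 2)] at h4
    rw [Nat.mul_div_cancel_left k (by norm_num : 0 < 3)]
    exact h4

/-- `Stmt_S39sf` gives the form of S39 used by S59-LL. -/
theorem s39ss_of_sf (h : Stmt_S39sf) : Fermat.Agent.S59.LL.H40.Stmt_S39ss := by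
  intro p hpF hp2 W hΔ hW hcard₁ hker hirr hfin M hM hsq hpM hram hmod
  exact h p hpF.out hp2 W hΔ hW hirr hfin M hsq hpM hmod

end Fermat.Agent.S39.H93
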