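/-
helper93, S39 for SEMISTABLE curves at SQUAREFREE levels, every odd `p` (`p = 3` included):
UNCONDITIONAL.  All the leaves of `S39.H93.s39sf_of` are plugged in:

* BAD_p at the tame levels      : `BADP3.stmt_BadP2T` (helper93 + helper97, helper66, helper52,
                                  helper57, helper28, helper33, helper21, helper11);
* Mazur's principle (NON-EXC-W) : `S38.H37.nonExcW_of` + FROB-T, COMP-EIS, COMP-EIS3, OLD, STRONG
                                  (helper37, helper13, helper91, helper60, helper35, helper78,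
                                  helper57);
* UNR-OUT                       : `BADP3.H45.stmt_UnrOut` (helper45);
* FIN-MULT                      : `S39.FinMult.H33.stmt_FinMult` (helper33, helper67);
* OLD-NEW                       : `S39.H71.oldNewPD_of` + `S33.New.H36.stmt_OrdNewStrict`
                                  (helper71, helper36);
* FIN-GOOD                      : `S39.FinGood.finGoodD_of` + FLAT-BDD (helper97), CONJ (helper71),
                                  FIN-LOC (helper71), KUM-INT (helper49, helper45).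

Results: `stmt_S39sf : Stmt_S39sf`, `stmt_S39ss : S59.LL.H40.Stmt_S39ss`.
-/
import Fermat.Agent.S39.H93_P3
import Fermat.Agent.BADP3.Done
import Fermat.Agent.BADP3.H45_UnrOut
import Fermat.Agent.S38.H37_Final3
import Fermat.Agent.S38.P3.H60_CompEis3
import Fermat.Agent.S39.FinMult.H33_Main
import Fermat.Agent.S39.H71_OldNewP
import Fermat.Agent.S33.New.H36_StrictFinal
import Fermat.Agent.S39.FinGood.H97_FlatBdd
import Fermat.Agent.S39.FinGood.H71_Conj
import Fermat.Agent.S39.FinGood.H71_FinLoc
import Fermat.Agent.S39.FinGood.H49_KumInt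

set_option autoImplicit false

noncomputable section

namespace Fermat.Agent.S39.H93

/-- **Mazur's principle at the primes which are not exceptional**, every odd `p`: DONE. -/
theorem stmt_NonExcW : Fermat.Agent.S38.H37.Stmt_NonExcW :=
  Fermat.Agent.S38.H37.nonExcW_of Fermat.Agent.S38.H37.stmt_FrobToricGen_done
    Fermat.Agent.S43.CompEis.H60.stmt_CompEis
    Fermat.Agent.S38.P3.H60.stmt_CompEis3S
    Fermat.Agent.S38.H37.stmt_OldGen_done
    Fermat.Agent.S38.P3.H57.stmt_Strong

/-- **FIN-GOOD**: DONE. -/
theorem stmt_FinGoodD : Fermat.Agent.S39.Stmt_FinGoodD :=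
  Fermat.Agent.S39.FinGood.finGoodD_of Fermat.Agent.S39.FinGood.H97.stmt_FlatBdd
    Fermat.Agent.S39.FinGood.H71.stmt_ConjShape Fermat.Agent.S39.FinGood.H71.stmt_ConjFin
    (Fermat.Agent.S39.FinGood.H71.finLoc_of Fermat.Agent.S39.FinGood.H49.stmt_KumInt)

/-- **OLD-NEW**: DONE. -/
theorem stmt_OldNewPD : Fermat.Agent.S39.Stmt_OldNewPD :=
  Fermat.Agent.S39.H71.oldNewPD_of Fermat.Agent.S33.New.H36.stmt_OrdNewStrict

/-- **S39 for a semistable curve at a squarefree level, every odd `p`**: UNCONDITIONAL. -/
theorem stmt_S39sf : Stmt_S39sf :=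
  s39sf_of Fermat.Agent.BADP3.stmt_BadP2T stmt_NonExcW
    (fun p hp hp2 W hΔ hirr M hM hmod q hq hqp hqM =>
      Fermat.Agent.BADP3.H45.stmt_UnrOut p hp hp2 W hΔ hirr M hM hmod q hq hqp hqM)
    Fermat.Agent.S39.FinMult.H33.stmt_FinMult stmt_OldNewPD stmt_FinGoodD

/-- **S39 in the form used by S59-LL** (`S59.LL.H40.llec_of_ss`): UNCONDITIONAL. -/
theorem stmt_S39ss : Fermat.Agent.S59.LL.H40.Stmt_S39ss :=
  s39ss_of_sf stmt_S39sf

end Fermat.Agent.S39.H93
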