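/-
S39 / S40 (general forms, for S59-LL): assembly of the landed leaves (helper71).
Plans: `NOTES/plan/L_S39.md`, `NOTES/plan/L_S39_FinGood.md`, `NOTES/plan/L_S39_BAD3.md`.

* `stmt_OldNewPD`        : OLD-NEW at `p`, unconditional (`H71.oldNewPD_of` + helper36's STRICT).
* `stmt_FinGoodD`        : FIN-GOOD, unconditional (L1 helper97, L2 + L3 helper71, KUM-INT
                           helper49).
* `lower_of_removesP`    : the common core, with Mazur's principle at `p` given at the level `M`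
                           only (`(jzModule M p).RemovesP M A` for ONE place `A` over `p`).
* `s39_of_removesP`      : the conclusion of S39 at a level `M` where Mazur's principle holds.
* `s39_ge5`, `s40_ge5`   : S39, S40 for `p ≥ 5`, unconditional (`S44.removesP_ge5`).
-/
import Fermat.Agent.S39.FinGood.H71_FinLoc
import Fermat.Agent.S39.FinGood.H71_Conj
import Fermat.Agent.S39.FinGood.H49_KumInt
import Fermat.Agent.S39.FinGood.H97_FlatBdd
import Fermat.Agent.S39.H71_OldNewP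
import Fermat.Agent.S33.New.H36_StrictFinal
import Fermat.Agent.S39.FinMult.H33_Main
import Fermat.Agent.S44.Done

set_option autoImplicit false
set_option synthInstance.maxHeartbeats 400000
set_option maxHeartbeats 1000000

noncomputable section

open WeierstrassCurve WeierstrassCurve.Affine WeierstrassCurve.Affine.Point
open scoped WeierstrassCurve.Affine

namespace Fermat.Agent.S39.Asm

open Fermat.Agent.S39 Fermat.Agent.S44 Fermat.Agent.L

/-- **OLD-NEW at `p`**, strong form, unconditional. -/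
theorem stmt_OldNewPD : Stmt_OldNewPD :=
  Fermat.Agent.S39.H71.oldNewPD_of Fermat.Agent.S33.New.H36.stmt_OrdNewStrict

/-- **FIN-GOOD**, unconditional. -/
theorem stmt_FinGoodD : Stmt_FinGoodD :=
  FinGood.finGoodD_of FinGood.H97.stmt_FlatBdd FinGood.H71.stmt_ConjShape
    FinGood.H71.stmt_ConjFin (FinGood.H71.finLoc_of FinGood.H49.stmt_KumInt)

/-- **The common core**, with Mazur's principle at `p` given at the level `M` and the place `A`
only. -/
theorem lower_of_removesP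
    (W : WeierstrassCurve ℤ) (hΔ : W.Δ ≠ 0) {p : ℕ} (hp : p.Prime) (hp2 : p ≠ 2)
    (hirr : W.ModRepIsIrreducible p)
    {M : ℕ} [NeZero M] (hpM : p ∣ M)
    (hmod : W.IsResiduallyModularOfLevel p M)
    (A : ValuationSubring (AlgebraicClosure ℚ))
    (hrem : (jzModule M p).RemovesP M A)
    (hfin : IsFiniteAt p A (rhoTors W p)) :
    W.IsResiduallyModularOfLevel p (M / p) := by
  have : Fact p.Prime := ⟨hp⟩
  have hM : 0 < M := Nat.pos_of_ne_zero (NeZero.ne M)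
  obtain ⟨f, 𝔪, hf, h𝔪, hp𝔪, hcong⟩ := hmod
  have hWE := isIntegralModelOf_map' W
  have : (W.map (Int.castRingHom ℚ)).IsElliptic :=
    ⟨isUnit_iff_ne_zero.mpr (by
      rw [WeierstrassCurve.map_Δ]
      simpa using hΔ)⟩
  obtain ⟨hcont, hES, hsupp⟩ := stmt_TateModP p hp hp2 M
  -- the exceptional set: the bad primes of the model
  set S : Finset ℕ := W.Δ.natAbs.primeFactors with hS
  have hgood : ∀ ℓ : ℕ, ℓ.Prime → ℓ ∉ S → W.IsGoodPrimeFor ℓ := fun ℓ hℓ h =>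
    prime_not_mem_of_good hℓ hΔ h
  -- the eigenvector of level `M`
  obtain ⟨x, hx0, hx⟩ := hsupp f 𝔪 S (fun ℓ => W.apOfModel ℓ) hf h𝔪 hp𝔪
    (fun ℓ hℓ hℓS hℓN hℓp => hcong ℓ hℓ (hgood ℓ hℓ hℓS) hℓN hℓp)
  -- congruence recovery
  obtain ⟨ι, hinj, hequiv, hT⟩ := Fermat.Agent.L.H52.recovery p hp hp2 M hM (jzModule M p)
    hcont hES (W.map (Int.castRingHom ℚ)) W hWE hirr S hgood x hx0 hx
  -- the system is not Eisenstein
  have hNE : ∃ ℓ : ℕ, ℓ.Prime ∧ ℓ ∉ S ∧ ¬ ℓ ∣ M ∧ ℓ ≠ p ∧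
      ((W.apOfModel ℓ : ℤ) : ZMod p) ≠ 1 + (ℓ : ZMod p) := by
    have h := Fermat.Agent.S41.H19.stmt_I3 (W.map (Int.castRingHom ℚ)) W hWE p M hp hM hirr
    by_contra hcon
    apply h
    intro ℓ hℓ hℓW hℓN hℓp
    by_contra hne
    refine hcon ⟨ℓ, hℓ, ?_, hℓN, hℓp, hne⟩
    intro hmem
    rw [hS, Nat.mem_primeFactors] at hmem
    exact hℓW (Int.natCast_dvd.mpr hmem.2.1)
  have hdim : Module.finrank (ZMod p) (Tors (W.map (Int.castRingHom ℚ)) p) = 2 :=
    Fermat.Agent.L.H52.finrank_tors_main hΔ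
  -- Mazur's principle
  obtain ⟨g, 𝔪', hg, h𝔪', hp𝔪', hg_cong⟩ := hrem (Tors (W.map (Int.castRingHom ℚ)) p)
    (rhoTors W p) ι S (fun ℓ => W.apOfModel ℓ) hdim
    (fun W' hW' => hirr.2 W' (fun σ x hx => hW' σ x hx))
    hfin hinj (fun σ v => hequiv σ v) hT hNE
  refine ⟨g, 𝔪', hg, h𝔪', hp𝔪', ?_⟩
  intro ℓ hℓ hℓW hℓM hℓp
  have hℓN : ¬ ℓ ∣ M := by
    intro hdvd
    have hN : M = p * (M / p) := (Nat.mul_div_cancel' hpM).symm
    rw [hN] at hdvd
    rcases (Nat.Prime.dvd_mul hℓ).mp hdvd with h | h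
    · exact hℓp ((Nat.prime_dvd_prime_iff_eq hℓ hp).mp h)
    · exact hℓM h
  have hℓS : ℓ ∉ S := by
    intro hmem
    rw [hS, Nat.mem_primeFactors] at hmem
    exact hℓW (Int.natCast_dvd.mpr hmem.2.1)
  exact hg_cong ℓ hℓ hℓS hℓN hℓp

/-- Either the level drops, or `E[p]` is finite at every place over `p`
(`W` semistable at `p`, `E[p]` peu ramifiée at `p`). -/
theorem lower_or_finite
    (W : WeierstrassCurve ℤ) (hΔ : W.Δ ≠ 0) {p : ℕ} (hp : p.Prime) (hp2 : p ≠ 2)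
    (hsemi : (p : ℤ) ∣ W.Δ → ¬ (p : ℤ) ∣ W.c₄)
    (hirr : W.ModRepIsIrreducible p)
    (hfin : (W.map (Int.castRingHom ℚ)).IsPeuRamifieeAt p p)
    {M : ℕ} (hM : 0 < M) (hpM : p ∣ M) (hp2M : ¬ p ^ 2 ∣ M)
    (hmod : W.IsResiduallyModularOfLevel p M) :
    W.IsResiduallyModularOfLevel p (M / p) ∨
      ∀ A : ValuationSubring (AlgebraicClosure ℚ), A.LiesOverPrime p →
        IsFiniteAt p A (rhoTors W p) := by
  by_cases hbad : (p : ℤ) ∣ W.Δ
  · exact Or.inr fun A hAp =>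
      Fermat.Agent.S39.FinMult.H33.stmt_FinMult W hΔ p hp hp2 hbad (hsemi hbad) hfin A hAp
  · rcases stmt_OldNewPD W hΔ p hp hp2 hbad hirr M hM hpM hp2M hmod with h | h
    · exact Or.inl h
    · exact Or.inr fun A hAp =>
        stmt_FinGoodD W hΔ p hp hp2 hbad hirr A hAp (h A hAp)

/-- **S39 at a level where Mazur's principle at `p` holds** (for one place over `p`). -/
theorem s39_of_removesP
    (W : WeierstrassCurve ℤ) (hΔ : W.Δ ≠ 0) {p : ℕ} (hp : p.Prime) (hp2 : p ≠ 2)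
    (hsemi : (p : ℤ) ∣ W.Δ → ¬ (p : ℤ) ∣ W.c₄)
    (hirr : W.ModRepIsIrreducible p)
    (hfin : (W.map (Int.castRingHom ℚ)).IsPeuRamifieeAt p p)
    {M : ℕ} [NeZero M] (hpM : p ∣ M) (hp2M : ¬ p ^ 2 ∣ M)
    (hmod : W.IsResiduallyModularOfLevel p M)
    (A : ValuationSubring (AlgebraicClosure ℚ)) (hAp : A.LiesOverPrime p)
    (hrem : (jzModule M p).RemovesP M A) :
    W.IsResiduallyModularOfLevel p (M / p) := by
  have hM : 0 < M := Nat.pos_of_ne_zero (NeZero.ne M)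
  rcases lower_or_finite W hΔ hp hp2 hsemi hirr hfin hM hpM hp2M hmod with h | h
  · exact h
  · exact lower_of_removesP W hΔ hp hp2 hirr hpM hmod A hrem (h A hAp)

/-- **S39 for `p ≥ 5`** (the conclusion is that of the frozen S39), unconditional. -/
theorem s39_ge5
    (W : WeierstrassCurve ℤ) (hΔ : W.Δ ≠ 0) {p : ℕ} (hp : p.Prime) (hp5 : 5 ≤ p)
    (hsemi : (p : ℤ) ∣ W.Δ → ¬ (p : ℤ) ∣ W.c₄)
    (hirr : W.ModRepIsIrreducible p)
    (hfin : (W.map (Int.castRingHom ℚ)).IsPeuRamifieeAt p p)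
    {M : ℕ} (hM : 0 < M) (hpM : p ∣ M) (hp2M : ¬ p ^ 2 ∣ M)
    (hmod : W.IsResiduallyModularOfLevel p M) :
    W.IsResiduallyModularOfLevel p (M / p) := by
  have : NeZero M := ⟨hM.ne'⟩
  obtain ⟨A, hAp⟩ := stmt_PlaceOver p hp
  exact s39_of_removesP W hΔ hp (by omega) hsemi hirr hfin hpM hp2M hmod A hAp
    (removesP_ge5 p hp hp5 M hpM hp2M A hAp)

/-- **S40 for `p ≥ 5`** (the conclusion is that of the frozen S40), unconditional. -/
theorem s40_ge5
    (W : WeierstrassCurve ℤ) (hΔ : W.Δ ≠ 0) {p : ℕ} (hp : p.Prime) (hp5 : 5 ≤ p)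
    (hgood : W.IsGoodPrimeFor p)
    (hirr : W.ModRepIsIrreducible p)
    {M : ℕ} (hM : 0 < M) (hpM : p ∣ M) (hp2M : ¬ p ^ 2 ∣ M)
    (hmod : W.IsResiduallyModularOfLevel p M) :
    W.IsResiduallyModularOfLevel p (M / p) := by
  have : NeZero M := ⟨hM.ne'⟩
  obtain ⟨A, hAp⟩ := stmt_PlaceOver p hp
  rcases stmt_OldNewPD W hΔ p hp (by omega) hgood hirr M hM hpM hp2M hmod with h | h
  · exact h
  · exact lower_of_removesP W hΔ hp (by omega) hirr hpM hmod A
      (removesP_ge5 p hp hp5 M hpM hp2M A hAp)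
      (stmt_FinGoodD W hΔ p hp (by omega) hgood hirr A hAp (h A hAp))

/-- **The frozen S39 from Mazur's principle at all odd `p`** (`Stmt_RemovesPGen`). -/
theorem s39_of_removesPGen (hR : Stmt_RemovesPGen)
    (W : WeierstrassCurve ℤ) (hΔ : W.Δ ≠ 0) {p : ℕ} (hp : p.Prime) (hp2 : p ≠ 2)
    (hsemi : (p : ℤ) ∣ W.Δ → ¬ (p : ℤ) ∣ W.c₄)
    (hirr : W.ModRepIsIrreducible p)
    (hfin : (W.map (Int.castRingHom ℚ)).IsPeuRamifieeAt p p)
    {M : ℕ} (hM : 0 < M) (hpM : p ∣ M) (hp2M : ¬ p ^ 2 ∣ M)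
    (hmod : W.IsResiduallyModularOfLevel p M) :
    W.IsResiduallyModularOfLevel p (M / p) :=
  result39_of_leavesD hR Fermat.Agent.S39.FinMult.H33.stmt_FinMult stmt_OldNewPD stmt_FinGoodD
    W hΔ hp hp2 hsemi hirr hfin hM hpM hp2M hmod

/-- **The frozen S40 from Mazur's principle at all odd `p`** (`Stmt_RemovesPGen`). -/
theorem s40_of_removesPGen (hR : Stmt_RemovesPGen)
    (W : WeierstrassCurve ℤ) (hΔ : W.Δ ≠ 0) {p : ℕ} (hp : p.Prime) (hp2 : p ≠ 2)
    (hgood : W.IsGoodPrimeFor p)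
    (hirr : W.ModRepIsIrreducible p)
    {M : ℕ} (hM : 0 < M) (hpM : p ∣ M) (hp2M : ¬ p ^ 2 ∣ M)
    (hmod : W.IsResiduallyModularOfLevel p M) :
    W.IsResiduallyModularOfLevel p (M / p) :=
  result40_of_leavesD hR stmt_OldNewPD stmt_FinGoodD W hΔ hp hp2 hgood hirr hM hpM hp2M hmod

end Fermat.Agent.S39.Asm
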