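/-
S39 (general form, for S59-LL and for the frozen S38): UNR-OUT and the assembly of the closed
leaves into helper93's `S39.H93.s39sf_of` (helper71).
Plans: `NOTES/plan/L_S39.md`, `NOTES/plan/L_S39_BAD3.md` (v2).

* `unrW_of_level`, `stmt_UnrOut : H93.Stmt_UnrOut` : (UNR-OUT) `W` residually modular of level
  `M`, `q ∤ M p`  ⟹  `E[p]` is unramified at `q`.  [Recovery `L.H52.recovery` embeds `E[p]` into
  `J₀(M)[p]` Galois-equivariantly, and inertia at `q ∤ M p` acts trivially on `J₀(M)[p]`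
  (`S44.stmt_TateModP`, Eichler–Shimura part).]
* `s39sf_of_open : BADP3.Stmt_BadP2T → S38.H37.Stmt_NonExcW → H93.Stmt_S39sf` : S39 for semistable
  curves at squarefree levels, from the two inputs which are still open (BAD_p at the tame levels,
  Mazur's principle at non-exceptional primes); FIN-MULT (helper33), OLD-NEW (helper71 + helper36),
  FIN-GOOD (helpers 97, 71, 49) and UNR-OUT are plugged in.
* `s39ss_of_open` : the same for `S59.LL.H40.Stmt_S39ss`.
* `s39sf_of_nonExcW`, `s39ss_of_nonExcW` : with helper93's `BADP3.stmt_BadP2T` plugged in, the only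
  open input is `S38.H37.Stmt_NonExcW` (Mazur's principle at non-exceptional primes; it is used at
  `q = 2`, `p = 3` only).
-/
import Fermat.Agent.S39.H71_Asm
import Fermat.Agent.S39.H93_P3
import Fermat.Agent.BADP3.Done

set_option autoImplicit false
set_option synthInstance.maxHeartbeats 400000
set_option maxHeartbeats 1000000

noncomputable section

open WeierstrassCurve WeierstrassCurve.Affine WeierstrassCurve.Affine.Point
open scoped WeierstrassCurve.Affine

namespace Fermat.Agent.S39.SS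

open Fermat.Agent.S39 Fermat.Agent.S44 Fermat.Agent.L Fermat.Agent.L.Pivot.H76

/-- **UNR-OUT**: a curve which is residually modular of level `M` has `E[p]` unramified at every
prime `q ∤ M p`. -/
theorem unrW_of_level (W : WeierstrassCurve ℤ) (hΔ : W.Δ ≠ 0) {p : ℕ} (hp : p.Prime)
    (hp2 : p ≠ 2) (hirr : W.ModRepIsIrreducible p) {M : ℕ} (hM : 0 < M)
    (hmod : W.IsResiduallyModularOfLevel p M) {q : ℕ} (hq : q.Prime) (hqM : ¬ q ∣ M)
    (hqp : q ≠ p) : UnrW W p q := by
  have : Fact p.Prime := ⟨hp⟩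
  have : NeZero M := ⟨hM.ne'⟩
  obtain ⟨f, 𝔪, hf, h𝔪, hp𝔪, hcong⟩ := hmod
  have hWE := isIntegralModelOf_map' W
  have : (W.map (Int.castRingHom ℚ)).IsElliptic :=
    ⟨isUnit_iff_ne_zero.mpr (by
      rw [WeierstrassCurve.map_Δ]
      simpa using hΔ)⟩
  obtain ⟨hcont, hES, hsupp⟩ := stmt_TateModP p hp hp2 M
  set S : Finset ℕ := W.Δ.natAbs.primeFactors with hS
  have hgood : ∀ ℓ : ℕ, ℓ.Prime → ℓ ∉ S → W.IsGoodPrimeFor ℓ := fun ℓ hℓ h =>
    prime_not_mem_of_good hℓ hΔ h
  obtain ⟨x, hx0, hx⟩ := hsupp f 𝔪 S (fun ℓ => W.apOfModel ℓ) hf h𝔪 hp𝔪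
    (fun ℓ hℓ hℓS hℓN hℓp => hcong ℓ hℓ (hgood ℓ hℓ hℓS) hℓN hℓp)
  obtain ⟨ι, hinj, hequiv, -⟩ := Fermat.Agent.L.H52.recovery p hp hp2 M hM (jzModule M p)
    hcont hES (W.map (Int.castRingHom ℚ)) W hWE hirr S hgood x hx0 hx
  intro A hA σ hσ v
  have hqMp : ¬ q ∣ M * p := by
    intro h
    rcases (Nat.Prime.dvd_mul hq).mp h with h | h
    · exact hqM h
    · exact hqp ((Nat.prime_dvd_prime_iff_eq hq hp).mp h)
  have h1 := (hES q hq hqMp A hA).1 σ hσ
  apply hinj
  have h2 := hequiv σ v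
  rw [h1] at h2
  exact h2

/-- **UNR-OUT**, in helper93's form. -/
theorem stmt_UnrOut : Fermat.Agent.S39.H93.Stmt_UnrOut :=
  fun _ hp hp2 W hΔ hirr _ hM hmod _ hq hqp hqM =>
    unrW_of_level W hΔ hp hp2 hirr hM hmod hq hqM hqp

/-- **S39 for semistable curves at squarefree levels** (every odd `p`), from the two inputs which
are still open. -/
theorem s39sf_of_open (hB : Fermat.Agent.BADP3.Stmt_BadP2T)
    (hNE : Fermat.Agent.S38.H37.Stmt_NonExcW) : Fermat.Agent.S39.H93.Stmt_S39sf :=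
  Fermat.Agent.S39.H93.s39sf_of hB hNE stmt_UnrOut Fermat.Agent.S39.FinMult.H33.stmt_FinMult
    Fermat.Agent.S39.Asm.stmt_OldNewPD Fermat.Agent.S39.Asm.stmt_FinGoodD

/-- **The semistable form of S39** used by `S59.LL.H40.llec_of_ss`, from the two open inputs. -/
theorem s39ss_of_open (hB : Fermat.Agent.BADP3.Stmt_BadP2T)
    (hNE : Fermat.Agent.S38.H37.Stmt_NonExcW) : Fermat.Agent.S59.LL.H40.Stmt_S39ss :=
  Fermat.Agent.S39.H93.s39ss_of_sf (s39sf_of_open hB hNE)

/-- **S39 for semistable curves at squarefree levels**: the only open input is Mazur's principle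
at the primes which are not exceptional (used at `q = 2`, `p = 3`). -/
theorem s39sf_of_nonExcW (hNE : Fermat.Agent.S38.H37.Stmt_NonExcW) :
    Fermat.Agent.S39.H93.Stmt_S39sf :=
  s39sf_of_open Fermat.Agent.BADP3.stmt_BadP2T hNE

/-- **The semistable form of S39** used by `S59.LL.H40.llec_of_ss`; the only open input is
`S38.H37.Stmt_NonExcW`. -/
theorem s39ss_of_nonExcW (hNE : Fermat.Agent.S38.H37.Stmt_NonExcW) :
    Fermat.Agent.S59.LL.H40.Stmt_S39ss :=
  s39ss_of_open Fermat.Agent.BADP3.stmt_BadP2T hNE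

end Fermat.Agent.S39.SS
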