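import Fermat.Agent.S39.WiringD
import Fermat.Prelude.Def_GaloisRep_StrictOrdinary

/-!
# S39 / S40, leaf OLD-NEW at `p`: the linear algebra of the Steinberg shape (helper71)

* `residual_line_of_strictOrdinary` : the reduction of the strictly ordinary line of a
  representation over a local ring.
* `det_eq_mul_of_line` : the determinant of an endomorphism of a plane which is `x` on a line
  and `z` modulo the line.
* `steinbergShapeD_of_residual` (and `steinbergShape_of_residual`) : a representation `r₀` over `ZMod p` whose base change to a field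
  `k` is equivalent to a representation with a residual strictly ordinary line has the Steinberg
  shape, if some element of the inertia group acts non-trivially and the determinant of `r₀` is
  the cyclotomic character.
-/

set_option autoImplicit false
set_option linter.unusedSectionVars false
set_option linter.unusedVariables false
set_option linter.style.haveILetI false

open IsLocalRing
open scoped TensorProduct

namespace Fermat.Agent.S39.H71

open Fermat.Agent.S39 Fermat.Agent.S44

/-- A residual strictly ordinary line at the place `P` (over the field `k`, for a representation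
`r` on `V`). -/
def ResLine (p : ℕ) (P : ValuationSubring (AlgebraicClosure ℚ)) {k V : Type} [Field k]
    [AddCommGroup V] [Module k V] (r : GQ →* Module.End k V) (L : Submodule k V) : Prop :=
  (∃ b : Module.Basis (Fin 2) k V, L = Submodule.span k {b 0}) ∧
  (∀ σ ∈ P.inertiaSubgroupIn ℚ, ∀ v : V, r σ v - v ∈ L) ∧
  (∀ σ ∈ P.decompositionSubgroup ℚ, ∃ x z : k,
    (∀ w ∈ L, r σ w = x • w) ∧ (∀ v : V, r σ v - z • v ∈ L) ∧
    ∀ a : ℕ, (∀ μ : AlgebraicClosure ℚ, μ ^ p = 1 → σ μ = μ ^ a) → x = (a : k) * z)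

/-- The reduction of a strictly ordinary line, for a base change `k ⊗[A] V`. -/
theorem resLine_of_baseChange {A : Type} [CommRing A] {V : Type} [AddCommGroup V] [Module A V]
    (r : GQ →* Module.End A V) {k : Type} [Field k] [Algebra A k] {p : ℕ} (hpk : (p : k) = 0)
    (r' : GQ →* Module.End k (k ⊗[A] V))
    (hact : ∀ (σ : GQ) (c : k) (w : V), r' σ (c ⊗ₜ[A] w) = c ⊗ₜ[A] (r σ w))
    (P : ValuationSubring (AlgebraicClosure ℚ))
    (L : Submodule A V) (b : Module.Basis (Fin 2) A V) (hL : L = Submodule.span A {b 0})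
    (hI : ∀ σ ∈ P.inertiaSubgroupIn ℚ, ∀ v : V, r σ v - v ∈ L)
    (hS : ∀ σ ∈ P.decompositionSubgroup ℚ, ∃ x z : A,
        (∀ w ∈ L, r σ w = x • w) ∧ (∀ v : V, r σ v - z • v ∈ L) ∧
        ∀ (n a : ℕ), (∀ μ : AlgebraicClosure ℚ, μ ^ p ^ n = 1 → σ μ = μ ^ a) →
          x - (a : A) * z ∈ Ideal.span {((p ^ n : ℕ) : A)}) :
    ∃ L' : Submodule k (k ⊗[A] V), ResLine p P r' L' := by
  classical
  let b' : Module.Basis (Fin 2) k (k ⊗[A] V) := b.baseChange k
  have hb' : ∀ i, b' i = (1 : k) ⊗ₜ[A] b i := fun i => Module.Basis.baseChange_apply _ _ _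
  let L' : Submodule k (k ⊗[A] V) := Submodule.span k {b' 0}
  have hsm : ∀ (c : k) (t : A) (w : V), c ⊗ₜ[A] (t • w) = (c * algebraMap A k t) • ((1 : k) ⊗ₜ[A] w) := by
    intro c t w
    rw [TensorProduct.smul_tmul', smul_eq_mul, mul_one, TensorProduct.tmul_smul,
      TensorProduct.smul_tmul', Algebra.smul_def, mul_comm]
  have hkey : ∀ u ∈ L, ∀ c : k, c ⊗ₜ[A] u ∈ L' := by
    intro u hu c
    rw [hL] at hu
    obtain ⟨t, rfl⟩ := Submodule.mem_span_singleton.1 hu
    rw [hsm, ← hb']
    exact Submodule.smul_mem _ _ (Submodule.mem_span_singleton_self _)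
  refine ⟨L', ⟨b', rfl⟩, ?_, ?_⟩
  · intro σ hσ v
    induction v using TensorProduct.induction_on with
    | zero => rw [map_zero, sub_zero]; exact Submodule.zero_mem _
    | tmul c w =>
      rw [hact, ← TensorProduct.tmul_sub]
      exact hkey _ (hI σ hσ w) c
    | add x y hx hy =>
      rw [map_add, add_sub_add_comm]
      exact Submodule.add_mem _ hx hy
  · intro σ hσ
    obtain ⟨x, z, hx, hz, hxz⟩ := hS σ hσ
    refine ⟨algebraMap A k x, algebraMap A k z, ?_, ?_, ?_⟩
    · intro w hw
      obtain ⟨c, rfl⟩ := Submodule.mem_span_singleton.1 hw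
      have hb0 : b 0 ∈ L := by rw [hL]; exact Submodule.mem_span_singleton_self _
      rw [map_smul, hb', hact, hx (b 0) hb0, hsm, one_mul, smul_smul, smul_smul, mul_comm]
    · intro v
      induction v using TensorProduct.induction_on with
      | zero => rw [map_zero, smul_zero, sub_zero]; exact Submodule.zero_mem _
      | tmul c w =>
        have e : r' σ (c ⊗ₜ[A] w) - algebraMap A k z • (c ⊗ₜ[A] w) =
            c ⊗ₜ[A] (r σ w - z • w) := by
          rw [hact, TensorProduct.tmul_sub, hsm, TensorProduct.smul_tmul', smul_eq_mul,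
            TensorProduct.smul_tmul', smul_eq_mul, mul_one, mul_comm]
        rw [e]
        exact hkey _ (hz w) c
      | add x y hx hy =>
        rw [map_add, smul_add, add_sub_add_comm]
        exact Submodule.add_mem _ hx hy
    · intro a ha
      have h1 := hxz 1 a (fun μ hμ => ha μ (by rwa [pow_one] at hμ))
      rw [pow_one] at h1
      obtain ⟨y, hy⟩ := Ideal.mem_span_singleton'.1 h1
      have h4 := congrArg (algebraMap A k) hy
      rw [map_mul, map_natCast, hpk, mul_zero, map_sub, map_mul, map_natCast] at h4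
      exact (sub_eq_zero.1 h4.symm)

/-- The reduction of the strictly ordinary line. -/
theorem residual_line_of_strictOrdinary {A : Type} [CommRing A] [IsLocalRing A]
    (ρ : GaloisRepAdic A) {p : ℕ} (h : ρ.IsStrictOrdinaryAt p)
    (P : ValuationSubring (AlgebraicClosure ℚ)) (hP : P.LiesOverPrime p) :
    ∃ L : Submodule (ResidueField A) ρ.residual.V, ResLine p P ρ.residual.ρ L := by
  obtain ⟨hpA, h2⟩ := h
  obtain ⟨L, ⟨b, hL⟩, hD, hI, hS⟩ := h2 P hP
  have hpk : ((p : ℕ) : ResidueField A) = 0 := by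
    have := (residue_eq_zero_iff (p : A)).2 hpA
    rwa [map_natCast] at this
  exact resLine_of_baseChange ρ.ρ (k := ResidueField A) hpk ρ.residual.ρ
    (fun σ c w => LinearMap.baseChange_tmul _ _ _) P L b hL hI hS

/-- The determinant of an endomorphism of a plane which is `x` on the line spanned by `b 0` and
`z` modulo this line. -/
theorem det_eq_mul_of_line {k V : Type*} [Field k] [AddCommGroup V] [Module k V]
    (b : Module.Basis (Fin 2) k V) (T : Module.End k V) (x z : k)
    (hx : T (b 0) = x • b 0) (hz : ∀ v, T v - z • v ∈ Submodule.span k {b 0}) :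
    LinearMap.det T = x * z := by
  classical
  rw [← LinearMap.det_toMatrix b, Matrix.det_fin_two]
  have h00 : LinearMap.toMatrix b b T 0 0 = x := by
    rw [LinearMap.toMatrix_apply, hx, map_smul, Finsupp.smul_apply, Module.Basis.repr_self,
      Finsupp.single_eq_same, smul_eq_mul, mul_one]
  have h10 : LinearMap.toMatrix b b T 1 0 = 0 := by
    rw [LinearMap.toMatrix_apply, hx, map_smul, Finsupp.smul_apply, Module.Basis.repr_self,
      Finsupp.single_eq_of_ne (by decide), smul_eq_mul, mul_zero]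
  have h11 : LinearMap.toMatrix b b T 1 1 = z := by
    rw [LinearMap.toMatrix_apply]
    obtain ⟨c, hc⟩ := Submodule.mem_span_singleton.1 (hz (b 1))
    have e : T (b 1) = z • b 1 + c • b 0 := by rw [hc]; abel
    rw [e, map_add, map_smul, map_smul, Finsupp.add_apply, Finsupp.smul_apply,
      Finsupp.smul_apply, Module.Basis.repr_self, Module.Basis.repr_self,
      Finsupp.single_eq_same, Finsupp.single_eq_of_ne (by decide), smul_eq_mul, smul_eq_mul,
      mul_one, mul_zero, add_zero]
  rw [h00, h10, h11, mul_zero, sub_zero]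

/-- The square of an element of the decomposition group acts trivially modulo a residual
strictly ordinary line, if the determinant is the cyclotomic character. -/
theorem sq_sub_mem_of_resLine {p : ℕ} {P : ValuationSubring (AlgebraicClosure ℚ)} {k V : Type}
    [Field k] [AddCommGroup V] [Module k V] (r : GQ →* Module.End k V) (L : Submodule k V)
    (hL : ResLine p P r L)
    (hdet : ∀ (σ : GQ) (a : ℕ), (∀ μ : AlgebraicClosure ℚ, μ ^ p = 1 → σ μ = μ ^ a) →
      LinearMap.det (r σ) = (a : k))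
    (hp : 0 < p) (σ : GQ) (hσ : σ ∈ P.decompositionSubgroup ℚ) (v : V) :
    r (σ * σ) v - v ∈ L := by
  obtain ⟨⟨b, hb⟩, hI, hD⟩ := hL
  obtain ⟨x, z, hx, hz, hxz⟩ := hD σ hσ
  obtain ⟨a, ha⟩ := exists_pow_on_roots p hp σ
  have hb0 : b 0 ∈ L := by rw [hb]; exact Submodule.mem_span_singleton_self _
  have h1 : LinearMap.det (r σ) = x * z :=
    det_eq_mul_of_line b (r σ) x z (hx _ hb0) (fun v => hb ▸ hz v)
  have h2 : LinearMap.det (r σ) = (a : k) := hdet σ a ha
  have h3 : x = (a : k) * z := hxz a ha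
  -- the determinant is a unit
  have hunit : LinearMap.det (r σ) ≠ 0 := by
    have h4 : r σ * r σ⁻¹ = 1 := by rw [← map_mul, mul_inv_cancel, map_one]
    have h5 := congrArg LinearMap.det h4
    rw [map_mul, map_one] at h5
    exact left_ne_zero_of_mul_eq_one h5
  have ha0 : (a : k) ≠ 0 := h2 ▸ hunit
  have hz2 : z * z = 1 := by
    have h6 : (a : k) * (z * z) = (a : k) * 1 := by
      rw [mul_one, ← mul_assoc, ← h3, ← h1, h2]
    exact mul_left_cancel₀ ha0 h6
  have e : r (σ * σ) v - v = r σ (r σ v - z • v) + z • (r σ v - z • v) := by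
    rw [map_mul, Module.End.mul_apply, map_sub, map_smul, smul_sub, smul_smul, hz2, one_smul]
    abel
  rw [e]
  refine Submodule.add_mem _ ?_ (Submodule.smul_mem _ _ (hz v))
  rw [hx _ (hz v)]
  exact Submodule.smul_mem _ _ (hz v)

/-- **Descent of the Steinberg shape.**  `r₀` a representation over `ZMod p` on a plane, `j` an
embedding of `ZMod p` into a field `k`, `r₂` a representation over `k` equivalent to the base
change of `r₀`, with a residual strictly ordinary line.  If the determinant of `r₀` is the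
cyclotomic character and some element of the inertia group moves a `p`-th root of unity, then
`r₀` has the Steinberg shape. -/
theorem steinbergShapeD_of_residual {p : ℕ} (hp : p.Prime)
    (P : ValuationSubring (AlgebraicClosure ℚ))
    {V₀ : Type} [AddCommGroup V₀] [Module (ZMod p) V₀] (r₀ : GQ →* Module.End (ZMod p) V₀)
    {k : Type} [Field k] [Algebra (ZMod p) k]
    {V₂ : Type} [AddCommGroup V₂] [Module k V₂] (r₂ : GQ →* Module.End k V₂)
    (e : (k ⊗[ZMod p] V₀) ≃ₗ[k] V₂)
    (he : ∀ (σ : GQ) (c : k) (v : V₀), e (c ⊗ₜ[ZMod p] (r₀ σ v)) = r₂ σ (e (c ⊗ₜ[ZMod p] v)))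
    (L : Submodule k V₂) (hL : ResLine p P r₂ L)
    (hdet₀ : ∀ (σ : GQ) (a : ℕ), (∀ μ : AlgebraicClosure ℚ, μ ^ p = 1 → σ μ = μ ^ a) →
      LinearMap.det (r₀ σ) = (a : ZMod p))
    (hdet₂ : ∀ σ : GQ, LinearMap.det (r₂ σ) = algebraMap (ZMod p) k (LinearMap.det (r₀ σ)))
    (hcyc : ∃ σ ∈ P.inertiaSubgroupIn ℚ, ∃ ζ : AlgebraicClosure ℚ, ζ ^ p = 1 ∧ σ ζ ≠ ζ) :
    SteinbergShapeD p P r₀ := by
  classical
  have hdet : ∀ (σ : GQ) (a : ℕ), (∀ μ : AlgebraicClosure ℚ, μ ^ p = 1 → σ μ = μ ^ a) →
      LinearMap.det (r₂ σ) = (a : k) := by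
    intro σ a ha
    rw [hdet₂ σ, hdet₀ σ a ha, map_natCast]
  have hsq := sq_sub_mem_of_resLine r₂ L hL hdet hp.pos
  obtain ⟨⟨b, hb⟩, hI, hD⟩ := hL
  -- the line over `ZMod p`
  let ι : V₀ → V₂ := fun v => e ((1 : k) ⊗ₜ[ZMod p] v)
  have hι : ∀ v, ι v = e ((1 : k) ⊗ₜ[ZMod p] v) := fun v => rfl
  have hιadd : ∀ v w, ι (v + w) = ι v + ι w := fun v w => by
    rw [hι, hι, hι, TensorProduct.tmul_add, map_add]
  have hιsub : ∀ v w, ι (v - w) = ι v - ι w := fun v w => by
    rw [hι, hι, hι, TensorProduct.tmul_sub, map_sub]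
  have hιzero : ι 0 = 0 := by rw [hι, TensorProduct.tmul_zero, map_zero]
  have hιsmul : ∀ (c : ZMod p) (v : V₀), ι (c • v) = algebraMap (ZMod p) k c • ι v := by
    intro c v
    rw [hι, hι, ← TensorProduct.smul_tmul, Algebra.smul_def, mul_one, ← map_smul,
      TensorProduct.smul_tmul', smul_eq_mul, mul_one]
  have hιr : ∀ σ v, ι (r₀ σ v) = r₂ σ (ι v) := fun σ v => by rw [hι, hι, he]
  let L₀ : Submodule (ZMod p) V₀ :=
    { carrier := {v | ι v ∈ L}
      add_mem' := fun {v w} hv hw => by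
        show ι (v + w) ∈ L
        rw [hιadd]
        exact Submodule.add_mem _ hv hw
      zero_mem' := by
        show ι 0 ∈ L
        rw [hιzero]
        exact Submodule.zero_mem _
      smul_mem' := fun c v hv => by
        show ι (c • v) ∈ L
        rw [hιsmul]
        exact Submodule.smul_mem _ _ hv }
  have hmem : ∀ v, v ∈ L₀ ↔ ι v ∈ L := fun v => Iff.rfl
  refine ⟨L₀, ?_, ?_, ?_, ?_, ?_⟩
  · -- `L₀ ≠ ⊥`
    obtain ⟨σ₀, hσ₀, ζ, hζ, hne⟩ := hcyc
    obtain ⟨a, ha⟩ := exists_pow_on_roots p hp.pos σ₀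
    have hr : r₀ σ₀ ≠ 1 := by
      intro h1
      have h2 := hdet₀ σ₀ a ha
      rw [h1, map_one] at h2
      -- `a ≡ 1 mod p`, so `σ₀ ζ = ζ`
      apply hne
      rw [ha ζ hζ]
      have h3 : ((a : ℕ) : ZMod p) = ((1 : ℕ) : ZMod p) := by rw [← h2, Nat.cast_one]
      have h4 : a ≡ 1 [MOD p] := (ZMod.natCast_eq_natCast_iff _ _ _).1 h3
      have h5 : ζ ^ a = ζ ^ 1 := by
        have hfo : IsOfFinOrder ζ := isOfFinOrder_iff_pow_eq_one.2 ⟨p, hp.pos, hζ⟩
        rw [hfo.pow_eq_pow_iff_modEq]
        exact h4.of_dvd (orderOf_dvd_of_pow_eq_one hζ)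
      rw [h5, pow_one]
    intro hbot
    apply hr
    refine LinearMap.ext fun v => ?_
    have h1 : r₀ σ₀ v - v ∈ L₀ := by
      rw [hmem, hιsub, hιr]
      exact hI σ₀ hσ₀ _
    rw [hbot, Submodule.mem_bot, sub_eq_zero] at h1
    rw [h1]
    rfl
  · -- `L₀ ≠ ⊤`
    intro htop
    have hall : ∀ v : V₀, ι v ∈ L := fun v => (hmem v).1 (htop ▸ Submodule.mem_top)
    have hLtop : L = ⊤ := by
      rw [eq_top_iff]
      intro w _
      obtain ⟨t, rfl⟩ := e.surjective w
      induction t using TensorProduct.induction_on with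
      | zero => rw [map_zero]; exact Submodule.zero_mem _
      | tmul c v =>
        have h1 : c ⊗ₜ[ZMod p] v = c • ((1 : k) ⊗ₜ[ZMod p] v) := by
          rw [TensorProduct.smul_tmul', smul_eq_mul, mul_one]
        rw [h1, map_smul]
        exact Submodule.smul_mem _ _ (hall v)
      | add x y hx hy =>
        rw [map_add]
        exact Submodule.add_mem _ (hx Submodule.mem_top) (hy Submodule.mem_top)
    have h1 : b 1 ∈ Submodule.span k {b 0} := by
      rw [← hb, hLtop]; exact Submodule.mem_top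
    obtain ⟨c, hc⟩ := Submodule.mem_span_singleton.1 h1
    have h2 := congrArg (fun w => b.repr w 1) hc
    simp only [map_smul, Module.Basis.repr_self, Finsupp.smul_apply, Finsupp.single_eq_same,
      smul_eq_mul, mul_one] at h2
    rw [Finsupp.single_eq_of_ne (by decide), mul_zero] at h2
    exact zero_ne_one h2
  · intro σ hσ x hx
    rw [hmem] at hx ⊢
    rw [hιr]
    obtain ⟨x', z', hx', -, -⟩ := hD σ hσ
    rw [hx' _ hx]
    exact Submodule.smul_mem _ _ hx
  · intro σ hσ x
    rw [hmem, hιsub, hιr]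
    exact hI σ hσ _
  · intro σ hσ x
    rw [hmem, hιsub, hιr]
    exact hsq σ hσ _

/-- The same with the weak form of the Steinberg shape. -/
theorem steinbergShape_of_residual {p : ℕ} (hp : p.Prime)
    (P : ValuationSubring (AlgebraicClosure ℚ))
    {V₀ : Type} [AddCommGroup V₀] [Module (ZMod p) V₀] (r₀ : GQ →* Module.End (ZMod p) V₀)
    {k : Type} [Field k] [Algebra (ZMod p) k]
    {V₂ : Type} [AddCommGroup V₂] [Module k V₂] (r₂ : GQ →* Module.End k V₂)
    (e : (k ⊗[ZMod p] V₀) ≃ₗ[k] V₂)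
    (he : ∀ (σ : GQ) (c : k) (v : V₀), e (c ⊗ₜ[ZMod p] (r₀ σ v)) = r₂ σ (e (c ⊗ₜ[ZMod p] v)))
    (L : Submodule k V₂) (hL : ResLine p P r₂ L)
    (hdet₀ : ∀ (σ : GQ) (a : ℕ), (∀ μ : AlgebraicClosure ℚ, μ ^ p = 1 → σ μ = μ ^ a) →
      LinearMap.det (r₀ σ) = (a : ZMod p))
    (hdet₂ : ∀ σ : GQ, LinearMap.det (r₂ σ) = algebraMap (ZMod p) k (LinearMap.det (r₀ σ)))
    (hcyc : ∃ σ ∈ P.inertiaSubgroupIn ℚ, ∃ ζ : AlgebraicClosure ℚ, ζ ^ p = 1 ∧ σ ζ ≠ ζ) :
    SteinbergShapeAt p P r₀ :=
  (steinbergShapeD_of_residual hp P r₀ r₂ e he L hL hdet₀ hdet₂ hcyc).toAt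

end Fermat.Agent.S39.H71
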